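import Fermat.Agent.S48.H248.DegGroup
import Fermat.Agent.S48.H332.F1Inst
import Fermat.Agent.S48.H908.CoreF1

/-!
# S48 / Tower A1 / A1-RED leaf DEG (helper248), part 2: the two FF hypotheses of `H908.Core1.core1`

* `finHyp : H908.Core1.FinHyp`  — `ℚ̄·F1(M)` is a function field in one variable
  (adapter from `H332.f1_finiteDimensional`, `H332.f1DataInf`);
* `degHyp : H908.Core1.DegHyp`  — `[ℚ̄·F1(M a) : ℚ̄·F1(M)] ∣ a² - 1` for a prime `a ∤ M`
  (`H332.f1_finrank_eq` at the levels `M` and `M a`, the tower law over `ℚ̄(j)`, and the group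
  theory of `DegGroup.lean`: `[±Γ₁(M) : ±Γ₁(M a)] ∣ [Γ₁(M) : Γ₁(M a)] ∣ a² - 1`);
* `core1_of_mod : Mod1Hyp → CoreG (F1 M) A Fk ℓ` — `H908.Core1.core1` with both plugged in.
-/

set_option autoImplicit false
set_option linter.style.haveILetI false

noncomputable section

open ModularCurve HahnSeries CongruenceSubgroup IntermediateField
open scoped MatrixGroups

namespace Fermat.Agent.S48.H248

open Fermat.Agent.S18 (Qb)
open Fermat.Agent.S48.F1 Fermat.Agent.S48.H332 Fermat.Agent.S48.H908.Core1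

/-! ### `[±Γ₁(M) : ±Γ₁(M a)]` divides `a² - 1` -/

/-- `{±1}` is normal in `SL₂(ℤ)`. -/
theorem normal_zpowers_neg_one : (Subgroup.zpowers (-1 : SL(2, ℤ))).Normal := by
  refine ⟨fun n hn g => ?_⟩
  obtain ⟨k, rfl⟩ := Subgroup.mem_zpowers_iff.mp hn
  have hc : Commute g (-1 : SL(2, ℤ)) := by
    show g * -1 = -1 * g
    simp
  rw [(hc.zpow_right k).eq, mul_inv_cancel_right]
  exact hn

theorem Gamma1_mul_le_left {M a : ℕ} (h : Nat.Coprime M a) : Gamma1 (M * a) ≤ Gamma1 M := by
  rw [Gamma1_mul_eq h]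
  exact inf_le_right

theorem pmGamma1_mul_le {M a : ℕ} (h : Nat.Coprime M a) : pmGamma1 (M * a) ≤ pmGamma1 M := by
  intro g hg
  rcases mem_pmGamma1_iff.mp hg with h1 | h1
  · exact mem_pmGamma1_iff.mpr (Or.inl (Gamma1_mul_le_left h h1))
  · exact mem_pmGamma1_iff.mpr (Or.inr (Gamma1_mul_le_left h h1))

/-- **`[±Γ₁(M) : ±Γ₁(M a)]` divides `a² - 1`** for a prime `a ∤ M`. -/
theorem relIndex_pmGamma1_mul_dvd {M a : ℕ} (ha : a.Prime) (haM : ¬ a ∣ M) :
    (pmGamma1 (M * a)).relIndex (pmGamma1 M) ∣ a ^ 2 - 1 := by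
  haveI := normal_zpowers_neg_one
  refine dvd_trans (relIndex_dvd_of_normal (Subgroup.zpowers (-1 : SL(2, ℤ)))
    (G₁ := Gamma1 M) (G₁' := Gamma1 (M * a)) ?_ (Gamma1_le_pmGamma1 _) (Gamma1_le_pmGamma1 _) ?_)
    (relIndex_Gamma1_mul_dvd ha haM)
  · exact (Subgroup.zpowers_le).mpr (neg_one_mem_pmGamma1 _)
  · intro g hg
    rcases mem_pmGamma1_iff.mp hg with h | h
    · exact ⟨1, one_mem _, by simpa using h⟩
    · exact ⟨-1, Subgroup.mem_zpowers _, by simpa using h⟩

/-! ### The degree over `ℚ̄(j)` -/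

/-- `ℚ̄(j) ⊆ ℚ̄((q))`. -/
def jField : IntermediateField Qb (LaurentSeries Qb) :=
  IntermediateField.adjoin Qb {coeffEmb Qb jq}

theorem jField_le (M : ℕ) : jField ≤ laurentBaseChange Qb (F1 M) := by
  rw [jField, IntermediateField.adjoin_le_iff]
  rintro x hx
  rw [Set.mem_singleton_iff] at hx
  rw [hx]
  exact coeffEmb_mem_laurentBaseChange Qb (jq_mem_F1 M)

/-- `[ℚ̄·F1(M) : ℚ̄(j)] = [SL₂(ℤ) : ±Γ₁(M)]`, as a relative degree inside `ℚ̄((q))`. -/
theorem relfinrank_jField (M : ℕ) [NeZero M] :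
    jField.relfinrank (laurentBaseChange Qb (F1 M)) = (pmGamma1 M).index := by
  rw [Subgroup.index_eq_card, ← f1_finrank_eq M]
  have h1 : (IntermediateField.adjoin Qb {f1J M}).map (laurentBaseChange Qb (F1 M)).val
      = jField := by
    rw [IntermediateField.adjoin_map, Set.image_singleton]
    rfl
  have h2 : (⊤ : IntermediateField Qb ↥(laurentBaseChange Qb (F1 M))).map
      (laurentBaseChange Qb (F1 M)).val = laurentBaseChange Qb (F1 M) := by
    rw [← AlgHom.fieldRange_eq_map, IntermediateField.fieldRange_val]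
  have h3 := IntermediateField.relfinrank_map_map
    (A := IntermediateField.adjoin Qb {f1J M})
    (B := (⊤ : IntermediateField Qb ↥(laurentBaseChange Qb (F1 M))))
    (laurentBaseChange Qb (F1 M)).val
  rw [h1, h2, IntermediateField.relfinrank_top_right] at h3
  exact h3

/-! ### The two hypotheses -/

theorem exists_algebraMap_eq_of_isAlgebraic248 {K F : Type*} [Field K] [Field F] [Algebra K F]
    [IsAlgClosed K] {x : F} (hx : IsAlgebraic K x) : ∃ c : K, algebraMap K F c = x := by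
  have hint : IsIntegral K x := hx.isIntegral
  refine ⟨-(minpoly K x).coeff 0, ?_⟩
  have hq : (minpoly K x).leadingCoeff = 1 := minpoly.monic hint
  have h : (minpoly K x).degree = 1 :=
    IsAlgClosed.degree_eq_one_of_irreducible K (minpoly.irreducible hint)
  have : Polynomial.aeval x (minpoly K x) = 0 := minpoly.aeval K x
  rw [Polynomial.eq_X_add_C_of_degree_eq_one h, hq, Polynomial.C_1, one_mul,
    Polynomial.aeval_add, Polynomial.aeval_X, Polynomial.aeval_C,
    add_eq_zero_iff_eq_neg] at this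
  exact (map_neg (algebraMap K F) ((minpoly K x).coeff 0)).symm ▸ this.symm

theorem not_mem_range_of_localData248 {K F C X : Type*} [Field K] [Field F] [Algebra K F]
    [Field C] [Nonempty X] {t : F} (d : Fermat.Agent.S24.LocalData K F C X t) (c : K) :
    t ≠ algebraMap K F c := by
  intro h
  obtain ⟨x⟩ := ‹Nonempty X›
  have h1 := d.σ_t_order x
  have h3 : d.σ x t = HahnSeries.C (d.ι c) := (congrArg (d.σ x) h).trans (d.σ_const x c)
  rw [h3] at h1
  have h2 : (HahnSeries.C (d.ι c) : LaurentSeries C).order = 0 := by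
    rw [HahnSeries.C_apply]
    by_cases hc : d.ι c = 0
    · simp [hc]
    · exact HahnSeries.order_single hc
  rw [h2] at h1
  have := d.m_pos
  omega

/-- An element with local data at its inverse is transcendental over an algebraically closed
field of constants (inlined from `S24/Alg.lean`, to keep the import closure small). -/
theorem transcendental_of_localData_inv248 {K F C X : Type*} [Field K] [Field F] [Algebra K F]
    [IsAlgClosed K] [Field C] [Nonempty X] (j : F)
    (d : Fermat.Agent.S24.LocalData K F C X j⁻¹) : Transcendental K j := by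
  intro halg
  obtain ⟨c, hc⟩ := exists_algebraMap_eq_of_isAlgebraic248 halg
  refine not_mem_range_of_localData248 d c⁻¹ ?_
  rw [map_inv₀, hc]

/-- **FinHyp** of `H908.Core1.core1`. -/
theorem finHyp : FinHyp := by
  intro M hM
  haveI : NeZero M := ⟨hM⟩
  have : Nonempty (SL(2, ℤ) ⧸ pmGamma1 M) := ⟨((1 : SL(2, ℤ)) : SL(2, ℤ) ⧸ pmGamma1 M)⟩
  exact ⟨f1J M, transcendental_of_localData_inv248 (f1J M) (f1DataInf M),
    f1_finiteDimensional M⟩

/-- **DegHyp** of `H908.Core1.core1`. -/
theorem degHyp : DegHyp := by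
  intro M a hM ha haM
  haveI : NeZero M := ⟨hM⟩
  haveI : NeZero (M * a) := ⟨Nat.mul_ne_zero hM ha.ne_zero⟩
  have hcop : Nat.Coprime M a := ((Nat.Prime.coprime_iff_not_dvd ha).mpr haM).symm
  have hle : laurentBaseChange Qb (F1 M) ≤ laurentBaseChange Qb (F1 (M * a)) :=
    lbc_mono Qb (F1_le_of_dvd (Dvd.intro a rfl))
  have ht := IntermediateField.relfinrank_mul_relfinrank (jField_le M) hle
  rw [relfinrank_jField, relfinrank_jField] at ht
  have hidx := Subgroup.relIndex_mul_index (pmGamma1_mul_le hcop)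
  have hne : (pmGamma1 M).index ≠ 0 := Subgroup.FiniteIndex.index_ne_zero
  have hd : (laurentBaseChange Qb (F1 M)).relfinrank (laurentBaseChange Qb (F1 (M * a)))
      = (pmGamma1 (M * a)).relIndex (pmGamma1 M) := by
    apply Nat.eq_of_mul_eq_mul_left (Nat.pos_of_ne_zero hne)
    rw [ht, ← hidx, mul_comm]
  rw [hd]
  exact relIndex_pmGamma1_mul_dvd ha haM

/-- **CORE1 from MOD1 alone**: `H908.Core1.core1` with `FinHyp` and `DegHyp` discharged. -/
theorem core1_of_mod (hmod : Mod1Hyp) (M ℓ p : ℕ) (hM : M ≠ 0)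
    (hℓ : ℓ.Prime) (hp : p.Prime) (hpMℓ : ¬ p ∣ M * ℓ) (A : ValuationSubring Qb)
    (hA : A.LiesOverPrime p)
    (Fk : IntermediateField (IsLocalRing.ResidueField A)
      (LaurentSeries (IsLocalRing.ResidueField A))) :
    Fermat.Agent.S48.H136.CoreG (F1 M) A Fk ℓ :=
  core1 hmod finHyp degHyp M ℓ p hM hℓ hp hpMℓ A hA Fk

end Fermat.Agent.S48.H248
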