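import Mathlib

/-!
# S48 / Tower A1 / A1-RED leaf DEG (helper248), part 1: group theory (Mathlib only)

* `card_SL2_field`   : `|SL₂(F)| = q (q² - 1)` for a finite field `F` with `q` elements;
* `relIndex_Gamma1_mul_dvd` : for a prime `a ∤ M`, `[Γ₁(M) : Γ₁(M a)] ∣ a² - 1`
  (reduction mod `a`: the image of `Γ₁(M)` in `SL₂(𝔽_a)` contains the upper unitriangular
  group `U`, `Γ₁(M a) = Γ₁(M) ∩ (preimage of U)`, Lagrange);
* `relIndex_dvd_of_central` : if `Z ≤ P'` is a normal subgroup with `P ≤ G ⊔ Z`-type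
  domination (`map π P ≤ map π G`) and `G' ≤ P'`, then `[P : P'] ∣ [G : G']`.
-/

set_option autoImplicit false
set_option linter.unusedSectionVars false
set_option linter.style.haveILetI false

open Matrix CongruenceSubgroup
open scoped MatrixGroups

namespace Fermat.Agent.S48.H248

/-! ### The order of `SL₂` of a finite field -/

section CardSL

variable (F : Type*) [Field F] [Fintype F]

theorem card_GL2_field : Nat.card (GL (Fin 2) F)
    = (Fintype.card F ^ 2 - 1) * (Fintype.card F ^ 2 - Fintype.card F) := by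
  rw [Matrix.card_GL_field, Fin.prod_univ_two]
  simp

theorem card_SL2_mul : Nat.card (SL(2, F)) * Nat.card Fˣ = Nat.card (GL (Fin 2) F) := by
  classical
  have h1 : (Matrix.GeneralLinearGroup.det : GL (Fin 2) F →* Fˣ).ker.index = Nat.card Fˣ := by
    rw [Subgroup.index_ker]
    have : (Matrix.GeneralLinearGroup.det : GL (Fin 2) F →* Fˣ).range = ⊤ :=
      MonoidHom.range_eq_top.mpr Matrix.GeneralLinearGroup.det_surjective
    rw [this]
    exact Nat.card_congr (Subgroup.topEquiv (G := Fˣ)).toEquiv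
  have h2 : Nat.card (Matrix.GeneralLinearGroup.det : GL (Fin 2) F →* Fˣ).ker
      = Nat.card (SL(2, F)) := by
    symm
    refine Nat.card_congr (Equiv.ofBijective
      (fun g : SL(2, F) => (⟨Matrix.SpecialLinearGroup.toGL g, ?_⟩ :
        (Matrix.GeneralLinearGroup.det : GL (Fin 2) F →* Fˣ).ker)) ⟨?_, ?_⟩)
    · rw [MonoidHom.mem_ker]
      ext
      simp
    · intro g g' h
      have h' := congrArg (fun x : (Matrix.GeneralLinearGroup.det : GL (Fin 2) F →* Fˣ).ker =>
        ((x : GL (Fin 2) F) : Matrix (Fin 2) (Fin 2) F)) h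
      exact Subtype.ext h'
    · rintro ⟨g, hg⟩
      rw [MonoidHom.mem_ker] at hg
      have hdet : (g : Matrix (Fin 2) (Fin 2) F).det = 1 := by
        have := congrArg (fun u : Fˣ => (u : F)) hg
        simpa using this
      refine ⟨⟨(g : Matrix (Fin 2) (Fin 2) F), hdet⟩, ?_⟩
      apply Subtype.ext
      ext i j
      rfl
  rw [← h2, ← h1]
  exact Subgroup.card_mul_index _

theorem card_SL2_field : Nat.card (SL(2, F)) = Fintype.card F * (Fintype.card F ^ 2 - 1) := by
  have hq : 2 ≤ Fintype.card F := Fintype.one_lt_card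
  have h := card_SL2_mul F
  rw [card_GL2_field, Nat.card_units, Nat.card_eq_fintype_card (α := F)] at h
  generalize Fintype.card F = q at hq h ⊢
  have hq1 : 0 < q - 1 := by omega
  have e : q ^ 2 - q = q * (q - 1) := by
    rw [Nat.mul_sub, mul_one, sq]
  rw [e] at h
  have h3 : Nat.card (SL(2, F)) * (q - 1) = (q * (q ^ 2 - 1)) * (q - 1) := by
    rw [h]; ring
  exact Nat.eq_of_mul_eq_mul_right hq1 h3

end CardSL

/-! ### The upper unitriangular subgroup -/

section Upper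

variable (R : Type*) [CommRing R]

/-- The upper unitriangular subgroup of `SL₂(R)`. -/
def upperU : Subgroup SL(2, R) where
  carrier := {g | g 0 0 = 1 ∧ g 1 1 = 1 ∧ g 1 0 = 0}
  one_mem' := by simp
  mul_mem' := by
    rintro g h ⟨g00, g11, g10⟩ ⟨h00, h11, h10⟩
    have e := Matrix.two_mul_expl g.1 h.1
    refine ⟨?_, ?_, ?_⟩
    · show (g * h).1 0 0 = 1
      rw [Matrix.SpecialLinearGroup.coe_mul, e.1]
      show g 0 0 * h 0 0 + g 0 1 * h 1 0 = 1
      rw [g00, h00, h10]; ring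
    · show (g * h).1 1 1 = 1
      rw [Matrix.SpecialLinearGroup.coe_mul, e.2.2.2]
      show g 1 0 * h 0 1 + g 1 1 * h 1 1 = 1
      rw [g10, g11, h11]; ring
    · show (g * h).1 1 0 = 0
      rw [Matrix.SpecialLinearGroup.coe_mul, e.2.2.1]
      show g 1 0 * h 0 0 + g 1 1 * h 1 0 = 0
      rw [g10, h10]; ring
  inv_mem' := by
    rintro g ⟨g00, g11, g10⟩
    rw [Set.mem_ofPred_eq, Matrix.SpecialLinearGroup.SL2_inv_expl]
    refine ⟨?_, ?_, ?_⟩
    · simpa using g11
    · simpa using g00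
    · simpa using g10

variable {R}

theorem mem_upperU {g : SL(2, R)} : g ∈ upperU R ↔ g 0 0 = 1 ∧ g 1 1 = 1 ∧ g 1 0 = 0 := Iff.rfl

/-- The element `[[1, b], [0, 1]]`. -/
def upperElt (b : R) : SL(2, R) :=
  ⟨!![1, b; 0, 1], by simp [Matrix.det_fin_two]⟩

theorem upperElt_mem (b : R) : upperElt b ∈ upperU R := by
  refine ⟨?_, ?_, ?_⟩ <;> simp [upperElt]

theorem eq_upperElt_of_mem {g : SL(2, R)} (hg : g ∈ upperU R) : g = upperElt (g 0 1) := by
  obtain ⟨h00, h11, h10⟩ := hg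
  ext i j
  fin_cases i <;> fin_cases j
  · simpa [upperElt] using h00
  · simp [upperElt]
  · simpa [upperElt] using h10
  · simpa [upperElt] using h11

theorem card_upperU (R : Type*) [CommRing R] : Nat.card (upperU R) = Nat.card R := by
  refine Nat.card_congr (Equiv.ofBijective (fun g : upperU R => (g : SL(2, R)) 0 1) ⟨?_, ?_⟩)
  · rintro ⟨g, hg⟩ ⟨h, hh⟩ hgh
    apply Subtype.ext
    show g = h
    rw [eq_upperElt_of_mem hg, eq_upperElt_of_mem hh]
    exact congrArg upperElt hgh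
  · intro b
    exact ⟨⟨upperElt b, upperElt_mem b⟩, by simp [upperElt]⟩

end Upper

/-! ### `[Γ₁(M) : Γ₁(M a)]` divides `a² - 1` -/

section Gamma1Index

/-- Reduction modulo `a`. -/
def redMod (a : ℕ) : SL(2, ℤ) →* SL(2, ZMod a) :=
  Matrix.SpecialLinearGroup.map (Int.castRingHom (ZMod a))

@[simp]
theorem redMod_apply (a : ℕ) (g : SL(2, ℤ)) (i j : Fin 2) :
    redMod a g i j = ((g i j : ℤ) : ZMod a) := rfl

theorem intCast_mul_eq_iff {M a : ℕ} (h : Nat.Coprime M a) (x y : ℤ) :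
    ((x : ZMod (M * a)) = (y : ZMod (M * a))) ↔
      ((x : ZMod M) = (y : ZMod M)) ∧ ((x : ZMod a) = (y : ZMod a)) := by
  rw [ZMod.intCast_eq_intCast_iff_dvd_sub, ZMod.intCast_eq_intCast_iff_dvd_sub,
    ZMod.intCast_eq_intCast_iff_dvd_sub]
  constructor
  · intro hd
    push_cast at hd
    exact ⟨(dvd_mul_right _ _).trans hd, (dvd_mul_left _ _).trans hd⟩
  · rintro ⟨h1, h2⟩
    push_cast
    have hc : IsCoprime (M : ℤ) (a : ℤ) := Nat.isCoprime_iff_coprime.mpr h
    exact hc.mul_dvd h1 h2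

theorem Gamma1_mul_eq {M a : ℕ} (h : Nat.Coprime M a) :
    Gamma1 (M * a) = (upperU (ZMod a)).comap (redMod a) ⊓ Gamma1 M := by
  ext g
  rw [Subgroup.mem_inf, Subgroup.mem_comap, mem_upperU, Gamma1_mem, Gamma1_mem]
  simp only [redMod_apply]
  have e1 := intCast_mul_eq_iff h (g 0 0) 1
  have e2 := intCast_mul_eq_iff h (g 1 1) 1
  have e3 := intCast_mul_eq_iff h (g 1 0) 0
  simp only [Int.cast_one, Int.cast_zero] at e1 e2 e3
  rw [e1, e2, e3]
  tauto

theorem T_zpow_mem_Gamma1 (M : ℕ) (n : ℤ) : ModularGroup.T ^ n ∈ Gamma1 M := by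
  rw [Gamma1_mem]
  simp [ModularGroup.coe_T_zpow]

theorem redMod_T_zpow (a : ℕ) (n : ℤ) : redMod a (ModularGroup.T ^ n) = upperElt (n : ZMod a) := by
  ext i j
  rw [redMod_apply, ModularGroup.coe_T_zpow]
  fin_cases i <;> fin_cases j <;> simp [upperElt]

theorem upperU_le_map (M a : ℕ) : upperU (ZMod a) ≤ (Gamma1 M).map (redMod a) := by
  intro u hu
  rw [eq_upperElt_of_mem hu]
  refine ⟨ModularGroup.T ^ ((u 0 1).cast : ℤ), T_zpow_mem_Gamma1 M _, ?_⟩
  rw [redMod_T_zpow, ZMod.intCast_zmod_cast]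

/-- **`[Γ₁(M) : Γ₁(M a)]` divides `a² - 1`** for a prime `a ∤ M`. -/
theorem relIndex_Gamma1_mul_dvd {M a : ℕ} (ha : a.Prime) (haM : ¬ a ∣ M) :
    (Gamma1 (M * a)).relIndex (Gamma1 M) ∣ a ^ 2 - 1 := by
  haveI : Fact a.Prime := ⟨ha⟩
  haveI : NeZero a := ⟨ha.ne_zero⟩
  have hcop : Nat.Coprime M a := ((Nat.Prime.coprime_iff_not_dvd ha).mpr haM).symm
  rw [Gamma1_mul_eq hcop, Subgroup.inf_relIndex_right, Subgroup.relIndex_comap]
  set H := (Gamma1 M).map (redMod a) with hH
  have hUH : upperU (ZMod a) ≤ H := upperU_le_map M a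
  have h1 := Subgroup.relIndex_mul_relIndex (⊥ : Subgroup SL(2, ZMod a)) (upperU (ZMod a)) H
    bot_le hUH
  rw [Subgroup.relIndex_bot_left, Subgroup.relIndex_bot_left, card_upperU,
    Nat.card_eq_fintype_card, ZMod.card] at h1
  have h2 : Nat.card H ∣ a * (a ^ 2 - 1) := by
    have := Subgroup.card_subgroup_dvd_card H
    rwa [card_SL2_field, ZMod.card] at this
  rw [← h1] at h2
  exact Nat.dvd_of_mul_dvd_mul_left ha.pos h2

end Gamma1Index

/-! ### Passing to `±Γ₁` -/

section Central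

variable {G : Type*} [Group G]

/-- If `Z ≤ P'` is normal, `G₁' ≤ P'`, `G₁ ≤ P` and every element of `P` is in `G₁` up to `Z`,
then `[P : P ∩ P']` divides `[G₁ : G₁ ∩ G₁']`. -/
theorem relIndex_dvd_of_normal (Z : Subgroup G) [Z.Normal] {G₁ G₁' P P' : Subgroup G}
    (hZ : Z ≤ P') (hG' : G₁' ≤ P') (hGP : G₁ ≤ P) (hP : ∀ g ∈ P, ∃ z ∈ Z, g * z ∈ G₁) :
    P'.relIndex P ∣ G₁'.relIndex G₁ := by
  have hker : (QuotientGroup.mk' Z).ker ≤ P' := by
    rw [QuotientGroup.ker_mk']; exact hZ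
  have hmap : P.map (QuotientGroup.mk' Z) = G₁.map (QuotientGroup.mk' Z) := by
    apply le_antisymm
    · rintro _ ⟨g, hg, rfl⟩
      obtain ⟨z, hz, hgz⟩ := hP g hg
      refine ⟨g * z, hgz, ?_⟩
      rw [map_mul]
      have : QuotientGroup.mk' Z z = 1 := (QuotientGroup.eq_one_iff z).mpr hz
      rw [this, mul_one]
    · exact Subgroup.map_mono hGP
  have e1 : P'.relIndex P = (P'.map (QuotientGroup.mk' Z)).relIndex
      (P.map (QuotientGroup.mk' Z)) := by
    rw [← Subgroup.relIndex_comap, Subgroup.comap_map_eq_self hker]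
  have e2 : P'.relIndex G₁ = (P'.map (QuotientGroup.mk' Z)).relIndex
      (G₁.map (QuotientGroup.mk' Z)) := by
    rw [← Subgroup.relIndex_comap, Subgroup.comap_map_eq_self hker]
  rw [e1, hmap, ← e2]
  exact Subgroup.relIndex_dvd_of_le_left G₁ hG'

end Central

end Fermat.Agent.S48.H248
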