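import Fermat.Agent.S48.H248.IVGauss

/-!
# S48 / RES (Tower A1) / node IGUSA1, pieces I-V and I-TV (helper248) — SUMMARY

Setting (GENERIC): `K` a field, `A` a valuation subring of `K`, `E` a subfield of `K`, `w₀` a
uniformiser of `A ∩ E` (`IsUnifG A E w₀`), `Ω` a field with `ι : Ω →+* K((X))` and constants
`cst : K →+* Ω` (`ι (cst c) = C c`), `F` a subfield of `Ω` containing the constants of `E`, such
that every element of `F` is a quotient of two integral series of `F` (`IsRatio`; automatic if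
`F` is generated over `E` by such quotients: `isRatio_of_mem_closure`).

With `R := RcG A E cst`, `Ec := EcG E cst`, `V := VRing A E ι F`, `w := cst w₀`:

* `igusa_R_fields`  : the fields `R_le R_total w_mem w_ne_zero w_inv_not_mem w_discrete`
                      of `H856.IgusaData` (and of `S18.Alg.GoodModel`, plus `w_gen`);
* `igusa_V_fields`  : the fields `R_le_V x_mem_V V_total w_inv_not_mem_V V_discrete gauss`
                      of `H856.IgusaData`;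
* `goodModel_V_fields` : the fields `V_le V_total R_le_V w_inv_not_mem_V V_gen x_mem_V gauss`
                      of `S18.Alg.GoodModel`;
* `twist_mem_VRing_iff` (`IVGauss.lean`) : field `t_V` of `H856.IgusaData`;
* `VRing_mono`, `mem_VRing_of_mem_of_le` : `V_F = V_{F'} ∩ F` for `F ≤ F'`.

WARNING for the owners of the full-level field: "every element of `Ffull` is a quotient of
integral series" (bounded denominators) is NOT automatic for a field of `E`-rational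
`X`-expansions: `R((X))` is not integrally closed in `E((X))` (`w * sqrt (1 + X / w ^ 2)` is
integral over `R[X]`, with unbounded denominators).  It holds for `Ffull = E(j, generators)` as
soon as the generators have `X`-expansions in `(1/d) R((X))`.
-/

set_option autoImplicit false

noncomputable section

namespace Fermat.Agent.S48.H248

open HahnSeries ModularCurve

variable {K : Type*} [Field K] {A : ValuationSubring K} {E : Subfield K}
variable {Ω : Type*} [Field Ω] {ι : Ω →+* LaurentSeries K} {F : Subfield Ω}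

section RFields

variable (cst : K →+* Ω)

theorem RcG_total : ∀ e ∈ EcG E cst, e ∈ RcG A E cst ∨ e⁻¹ ∈ RcG A E cst := by
  intro e he
  obtain ⟨c, hc, rfl⟩ := (mem_EcG_iff cst).mp he
  rcases A.mem_or_inv_mem c with h | h
  · exact Or.inl ((mem_RcG_iff cst).mpr ⟨c, h, hc, rfl⟩)
  · exact Or.inr ((mem_RcG_iff cst).mpr ⟨c⁻¹, h, E.inv_mem hc, map_inv₀ cst c⟩)

theorem cst_mem_RcG_iff {c : K} : cst c ∈ RcG A E cst ↔ c ∈ A ∧ c ∈ E := by
  constructor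
  · intro h
    obtain ⟨c', hA, hE, hcc⟩ := (mem_RcG_iff cst).mp h
    have : c' = c := cst.injective hcc
    exact this ▸ ⟨hA, hE⟩
  · rintro ⟨hA, hE⟩
    exact (mem_RcG_iff cst).mpr ⟨c, hA, hE, rfl⟩

/-- The `R`-fields of `H856.IgusaData` (in the order of the structure), plus `w_gen`. -/
theorem igusa_R_fields {w₀ : K} (hw : IsUnifG A E w₀) :
    (∀ r ∈ RcG A E cst, r ∈ EcG E cst) ∧
    (∀ e ∈ EcG E cst, e ∈ RcG A E cst ∨ e⁻¹ ∈ RcG A E cst) ∧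
    cst w₀ ∈ RcG A E cst ∧
    cst w₀ ≠ 0 ∧
    (cst w₀)⁻¹ ∉ RcG A E cst ∧
    (∀ r ∈ RcG A E cst, r ≠ 0 →
      ∃ n : ℕ, r * ((cst w₀)⁻¹) ^ n ∈ RcG A E cst ∧ (r * ((cst w₀)⁻¹) ^ n)⁻¹ ∈ RcG A E cst) ∧
    (∀ r ∈ RcG A E cst, r⁻¹ ∉ RcG A E cst → r * (cst w₀)⁻¹ ∈ RcG A E cst) := by
  refine ⟨RcG_le_EcG cst, RcG_total cst, (cst_mem_RcG_iff cst).mpr ⟨hw.mem_A, hw.mem_E⟩,
    (map_ne_zero cst).mpr hw.ne_zero, ?_, ?_, ?_⟩
  · rw [← map_inv₀, cst_mem_RcG_iff]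
    exact fun h => hw.inv_not_mem h.1
  · intro r hr hr0
    obtain ⟨c, hcA, hcE, rfl⟩ := (mem_RcG_iff cst).mp hr
    have hc0 : c ≠ 0 := fun h => hr0 (by rw [h, map_zero])
    obtain ⟨n, h1, h2⟩ := hw.discrete c hcA hcE hc0
    refine ⟨n, ?_, ?_⟩
    · rw [← map_inv₀, ← map_pow, ← map_mul, cst_mem_RcG_iff]
      exact ⟨h1, E.mul_mem hcE (E.pow_mem (E.inv_mem hw.mem_E) n)⟩
    · rw [← map_inv₀, ← map_pow, ← map_mul, ← map_inv₀, cst_mem_RcG_iff]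
      exact ⟨h2, E.inv_mem (E.mul_mem hcE (E.pow_mem (E.inv_mem hw.mem_E) n))⟩
  · intro r hr hinv
    obtain ⟨c, hcA, hcE, rfl⟩ := (mem_RcG_iff cst).mp hr
    rw [← map_inv₀, ← map_mul, cst_mem_RcG_iff]
    refine ⟨hw.gen c hcA hcE fun h => hinv ?_, E.mul_mem hcE (E.inv_mem hw.mem_E)⟩
    rw [← map_inv₀, cst_mem_RcG_iff]
    exact ⟨h, E.inv_mem hcE⟩

end RFields

section VFields

variable (cst : K →+* Ω) (hcst : ∀ c : K, ι (cst c) = HahnSeries.C c)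
  (hEF : ∀ c ∈ E, cst c ∈ F)

include hcst hEF

/-- The `V`-fields of `H856.IgusaData` (in the order of the structure) for the Gauss valuation
ring `V = VRing A E ι F`. -/
theorem igusa_V_fields {w₀ : K} (hw : IsUnifG A E w₀)
    (hgen : ∀ f ∈ F, IsRatio A E ι F f)
    {x : Ω} {X₀ : LaurentSeries A} (hX₀ : IsInt A E ι F X₀) (hx : ι x = ivInc A X₀)
    (n₀ : ℤ) (hn₀ : n₀ < 0) (hne : ((X₀.coeff n₀ : A) : K) ≠ 0)
    (hunit : ((X₀.coeff n₀ : A) : K)⁻¹ ∈ A) :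
    RcG A E cst ≤ VRing A E ι F ∧
    x ∈ VRing A E ι F ∧
    (∀ f ∈ F, f ∈ VRing A E ι F ∨ f⁻¹ ∈ VRing A E ι F) ∧
    (cst w₀)⁻¹ ∉ VRing A E ι F ∧
    (∀ f ∈ F, f ≠ 0 →
      ∃ n : ℤ, f * cst w₀ ^ n ∈ VRing A E ι F ∧ (f * cst w₀ ^ n)⁻¹ ∈ VRing A E ι F) ∧
    (∀ P : Polynomial Ω, (∀ i, P.coeff i ∈ RcG A E cst) →
      (∃ i, P.coeff i ≠ 0 ∧ (P.coeff i)⁻¹ ∈ RcG A E cst) →
      (P.eval x)⁻¹ ∈ VRing A E ι F) :=
  ⟨RcG_le_VRing cst hcst hEF, x_mem_VRing hX₀ hx,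
    fun f hf => V_total cst hcst hEF hw hf (hgen f hf),
    w_inv_not_mem_VRing cst hcst hw.ne_zero hw.inv_not_mem,
    fun f hf hf0 => V_discrete cst hcst hEF hw hf (hgen f hf) hf0,
    fun P hP hPu => gauss cst hcst hEF hX₀ hx n₀ hn₀ hne hunit P hP hPu⟩

/-- The `V`-fields of `S18.Alg.GoodModel` (in the order of the structure) for the Gauss
valuation ring `V = VRing A E ι F`. -/
theorem goodModel_V_fields {w₀ : K} (hw : IsUnifG A E w₀)
    (hgen : ∀ f ∈ F, IsRatio A E ι F f)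
    {x : Ω} {X₀ : LaurentSeries A} (hX₀ : IsInt A E ι F X₀) (hx : ι x = ivInc A X₀)
    (n₀ : ℤ) (hn₀ : n₀ < 0) (hne : ((X₀.coeff n₀ : A) : K) ≠ 0)
    (hunit : ((X₀.coeff n₀ : A) : K)⁻¹ ∈ A) :
    (VRing A E ι F : Set Ω) ⊆ F ∧
    (∀ f ∈ F, f ∈ VRing A E ι F ∨ f⁻¹ ∈ VRing A E ι F) ∧
    RcG A E cst ≤ VRing A E ι F ∧
    (cst w₀)⁻¹ ∉ VRing A E ι F ∧
    (∀ f ∈ VRing A E ι F, f⁻¹ ∉ VRing A E ι F → f * (cst w₀)⁻¹ ∈ VRing A E ι F) ∧
    x ∈ VRing A E ι F ∧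
    (∀ P : Polynomial Ω, (∀ i, P.coeff i ∈ RcG A E cst) →
      (∃ i, P.coeff i ≠ 0 ∧ (P.coeff i)⁻¹ ∈ RcG A E cst) →
      (P.eval x)⁻¹ ∈ VRing A E ι F) :=
  ⟨VRing_le A E ι F, fun f hf => V_total cst hcst hEF hw hf (hgen f hf),
    RcG_le_VRing cst hcst hEF, w_inv_not_mem_VRing cst hcst hw.ne_zero hw.inv_not_mem,
    fun _ hf hinv => V_gen cst hcst hEF hw hf hinv, x_mem_VRing hX₀ hx,
    fun P hP hPu => gauss cst hcst hEF hX₀ hx n₀ hn₀ hne hunit P hP hPu⟩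

/-- `V_F = V_{F'} ∩ F` for `F ≤ F'`. -/
theorem VRing_eq_inf {w₀ : K} (hw : IsUnifG A E w₀) (hgen : ∀ f ∈ F, IsRatio A E ι F f)
    {F' : Subfield Ω} (hF : F ≤ F') (f : Ω) :
    f ∈ VRing A E ι F ↔ f ∈ VRing A E ι F' ∧ f ∈ F :=
  ⟨fun h => ⟨VRing_mono hF h, h.1⟩,
    fun h => mem_VRing_of_mem_of_le cst hcst hEF hw hF h.2 (hgen f h.2) h.1⟩

end VFields

end Fermat.Agent.S48.H248
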