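import Mathlib
import Fermat.Prelude.Def_ModularCurve_LaurentCoeff

/-!
# S48 / RES (Tower A1) / node IGUSA1, piece I-V (helper248) — part 1: the Gauss valuation ring

GENERIC in the field.  `K` a field (`Q̄`), `A` a valuation subring of `K`, `E` a subfield of `K`,
`Ω` a field with a ring hom `ι : Ω →+* K((X))` (`Ω = K((X))`, `ι = id`, or `Ω` a subfield of
`K((X))`, `ι` the inclusion), `F` a subfield of `Ω`.

* `IsInt A E ι F U`  : `U ∈ A((X))` has coefficients in `E` and is (the expansion of) an element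
                        of `F`  (same shape as `S18.Mod.IsIntE`);
* `VSet A E ι F`     : quotients `U₁/U₂` of such series with `U₂ ≢ 0` modulo the maximal ideal of
                        `A`  (same shape as `S18.Mod.VcSet`);
* `VRing`            : `VSet` is a subring;
* `R_le_V`, `w_inv_not_mem_V`, `VSet_mono`.

`inc = coeffMap A.subtype`, `red = coeffMap (residue A)`.
-/

set_option autoImplicit false

noncomputable section

namespace Fermat.Agent.S48.H248

open HahnSeries ModularCurve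

variable {K : Type*} [Field K] (A : ValuationSubring K) (E : Subfield K)
variable {Ω : Type*} [Field Ω] (ι : Ω →+* LaurentSeries K) (F : Subfield Ω)

/-- `A((X)) → K((X))`. -/
abbrev ivInc : LaurentSeries A →+* LaurentSeries K := coeffMap A.subtype

/-- `A((X)) → κ((X))`. -/
abbrev ivRed : LaurentSeries A →+* LaurentSeries (IsLocalRing.ResidueField A) :=
  coeffMap (IsLocalRing.residue A)

variable {A} in
theorem ivInc_injective : Function.Injective (ivInc A) := by
  intro x y hxy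
  ext k
  have := congrArg (fun z => z.coeff k) hxy
  simpa using this

variable {A} in
theorem ivInc_coeff (U : LaurentSeries A) (n : ℤ) : (ivInc A U).coeff n = (U.coeff n : K) := by
  rw [coeffMap_coeff]; rfl

variable {A} in
theorem ivRed_coeff (U : LaurentSeries A) (n : ℤ) :
    (ivRed A U).coeff n = IsLocalRing.residue A (U.coeff n) := by
  rw [coeffMap_coeff]

variable {A} in
/-- A series over `K` with coefficients in `A` comes from `A((X))`. -/
theorem exists_ivInc_eq {g : LaurentSeries K} (hg : ∀ n, g.coeff n ∈ A) :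
    ∃ U : LaurentSeries A, ivInc A U = g := by
  have hsupp : (Function.support fun n => (⟨g.coeff n, hg n⟩ : A)) = g.support := by
    ext n
    simp only [Function.mem_support, HahnSeries.mem_support, ne_eq]
    constructor
    · intro h h0
      exact h (Subtype.ext h0)
    · intro h h0
      exact h (congrArg Subtype.val h0)
  refine ⟨⟨fun n => ⟨g.coeff n, hg n⟩, ?_⟩, ?_⟩
  · rw [hsupp]; exact g.isPWO_support
  · ext n
    rw [ivInc_coeff]

variable {A} in
theorem ivRed_eq_zero_iff (U : LaurentSeries A) :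
    ivRed A U = 0 ↔ ∀ n, U.coeff n ∈ IsLocalRing.maximalIdeal A := by
  constructor
  · intro h n
    have := congrArg (fun z => z.coeff n) h
    simp only [ivRed_coeff, HahnSeries.coeff_zero] at this
    exact (IsLocalRing.residue_eq_zero_iff _).mp this
  · intro h
    ext n
    rw [ivRed_coeff, HahnSeries.coeff_zero]
    exact (IsLocalRing.residue_eq_zero_iff _).mpr (h n)

variable {A} in
/-- an element of `A` is in the maximal ideal iff it is `0` or its inverse is not in `A`. -/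
theorem iv_mem_maximalIdeal_iff (c : A) :
    c ∈ IsLocalRing.maximalIdeal A ↔ (c : K) = 0 ∨ (c : K)⁻¹ ∉ A := by
  rw [IsLocalRing.mem_maximalIdeal, mem_nonunits_iff]
  constructor
  · intro h
    by_contra hcon
    rw [not_or, not_not] at hcon
    apply h
    exact isUnit_iff_exists_inv.mpr ⟨⟨(c : K)⁻¹, hcon.2⟩, Subtype.ext (by
      show (c : K) * (c : K)⁻¹ = 1
      exact mul_inv_cancel₀ hcon.1)⟩
  · rintro (h | h) hu
    · have : c = 0 := Subtype.ext h
      rw [this] at hu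
      exact not_isUnit_zero hu
    · obtain ⟨d, hd⟩ := isUnit_iff_exists_inv.mp hu
      apply h
      have h1 : (c : K) * (d : K) = 1 := congrArg Subtype.val hd
      have : (c : K)⁻¹ = d := inv_eq_of_mul_eq_one_right h1
      rw [this]; exact d.2

variable {A} in
theorem ivRed_ne_zero_imp_ivInc_ne_zero {U : LaurentSeries A} (h : ivRed A U ≠ 0) :
    ivInc A U ≠ 0 := by
  intro h0
  apply h
  have : U = 0 := ivInc_injective (by rw [h0, map_zero])
  rw [this, map_zero]

theorem ivInc_C (c : A) : ivInc A (HahnSeries.C c) = HahnSeries.C (c : K) := by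
  ext n
  rw [ivInc_coeff]
  by_cases hn : n = 0
  · subst hn
    simp [HahnSeries.C_apply]
  · rw [HahnSeries.C_apply, HahnSeries.C_apply, HahnSeries.coeff_single_of_ne hn,
      HahnSeries.coeff_single_of_ne hn]
    rfl

theorem ivRed_C (c : A) : ivRed A (HahnSeries.C c) = HahnSeries.C (IsLocalRing.residue A c) := by
  ext n
  rw [ivRed_coeff]
  by_cases hn : n = 0
  · subst hn
    simp [HahnSeries.C_apply]
  · rw [HahnSeries.C_apply, HahnSeries.C_apply, HahnSeries.coeff_single_of_ne hn,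
      HahnSeries.coeff_single_of_ne hn, map_zero]

/-! ### Integral series -/

/-- `U ∈ A((X))` is `E`-rational and is the expansion of an element of `F`. -/
def IsInt (U : LaurentSeries A) : Prop :=
  (∀ n : ℤ, ((U.coeff n : A) : K) ∈ E) ∧ ∃ f ∈ F, ι f = ivInc A U

variable {A E ι F}

theorem IsInt.mono {F' : Subfield Ω} (hF : F ≤ F') {U : LaurentSeries A}
    (h : IsInt A E ι F U) : IsInt A E ι F' U :=
  ⟨h.1, let ⟨f, hf, hfU⟩ := h.2; ⟨f, hF hf, hfU⟩⟩

theorem isInt_zero : IsInt A E ι F 0 :=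
  ⟨fun n => by simp, 0, zero_mem _, by simp⟩

theorem isInt_one : IsInt A E ι F 1 := by
  refine ⟨fun n => ?_, 1, one_mem _, by simp⟩
  rw [HahnSeries.coeff_one]
  split_ifs
  · exact E.one_mem
  · exact E.zero_mem

theorem IsInt.add {U U' : LaurentSeries A} (h : IsInt A E ι F U) (h' : IsInt A E ι F U') :
    IsInt A E ι F (U + U') := by
  obtain ⟨f, hf, hfU⟩ := h.2
  obtain ⟨f', hf', hfU'⟩ := h'.2
  refine ⟨fun n => ?_, f + f', add_mem hf hf', by rw [map_add, map_add, hfU, hfU']⟩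
  rw [HahnSeries.coeff_add]
  exact E.add_mem (h.1 n) (h'.1 n)

theorem IsInt.neg {U : LaurentSeries A} (h : IsInt A E ι F U) : IsInt A E ι F (-U) := by
  obtain ⟨f, hf, hfU⟩ := h.2
  refine ⟨fun n => ?_, -f, neg_mem hf, by rw [map_neg, map_neg, hfU]⟩
  rw [HahnSeries.coeff_neg]
  exact E.neg_mem (h.1 n)

/-- the coefficients of `ι f` lie in `E` when `ι f = inc U` with `U` integral. -/
theorem IsInt.coeff_mem {U : LaurentSeries A} (h : IsInt A E ι F U) (n : ℤ) :
    (ivInc A U).coeff n ∈ E := by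
  rw [ivInc_coeff]; exact h.1 n

theorem IsInt.mul {U U' : LaurentSeries A} (h : IsInt A E ι F U) (h' : IsInt A E ι F U') :
    IsInt A E ι F (U * U') := by
  obtain ⟨f, hf, hfU⟩ := h.2
  obtain ⟨f', hf', hfU'⟩ := h'.2
  refine ⟨fun n => ?_, f * f', mul_mem hf hf', by rw [map_mul, map_mul, hfU, hfU']⟩
  have hc : ((U * U').coeff n : K) = (ivInc A (U * U')).coeff n := (ivInc_coeff _ n).symm
  rw [hc, map_mul, HahnSeries.coeff_mul]
  refine E.sum_mem fun ij _ => E.mul_mem ?_ ?_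
  · exact h.coeff_mem ij.1
  · exact h'.coeff_mem ij.2

theorem IsInt.pow {U : LaurentSeries A} (h : IsInt A E ι F U) (n : ℕ) :
    IsInt A E ι F (U ^ n) := by
  induction n with
  | zero => rw [pow_zero]; exact isInt_one
  | succ n ih => rw [pow_succ]; exact IsInt.mul ih h

/-- From an element of `F` whose expansion has coefficients in `A ∩ E`. -/
theorem exists_isInt_of_coeff_mem {f : Ω} (hf : f ∈ F) (hA : ∀ n, (ι f).coeff n ∈ A)
    (hE : ∀ n, (ι f).coeff n ∈ E) : ∃ U : LaurentSeries A, IsInt A E ι F U ∧ ι f = ivInc A U := by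
  obtain ⟨U, hU⟩ := exists_ivInc_eq hA
  refine ⟨U, ⟨fun n => ?_, f, hf, hU.symm⟩, hU.symm⟩
  rw [← ivInc_coeff, hU]
  exact hE n

/-! ### Constants -/

section Constants

variable (cst : K →+* Ω) (hcst : ∀ c : K, ι (cst c) = HahnSeries.C c)
  (hEF : ∀ c ∈ E, cst c ∈ F)

include hcst hEF

/-- A constant `c ∈ A ∩ E` as an integral series. -/
theorem isInt_C {c : A} (hc : (c : K) ∈ E) : IsInt A E ι F (HahnSeries.C c) := by
  refine ⟨fun n => ?_, cst (c : K), hEF _ hc, by rw [hcst, ivInc_C]⟩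
  by_cases hn : n = 0
  · subst hn
    simpa [HahnSeries.C_apply] using hc
  · rw [HahnSeries.C_apply, HahnSeries.coeff_single_of_ne hn]
    exact E.zero_mem

end Constants

/-! ### The Gauss valuation ring -/

variable (A E ι F) in
/-- The Gauss valuation ring of `F`, as a set (same shape as `S18.Mod.VcSet`). -/
def VSet : Set Ω :=
  {f | f ∈ F ∧ ∃ U₁ U₂ : LaurentSeries A, IsInt A E ι F U₁ ∧ IsInt A E ι F U₂ ∧
    ivRed A U₂ ≠ 0 ∧ ι f * ivInc A U₂ = ivInc A U₁}

theorem mem_VSet_iff {f : Ω} :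
    f ∈ VSet A E ι F ↔ f ∈ F ∧ ∃ U₁ U₂ : LaurentSeries A, IsInt A E ι F U₁ ∧
      IsInt A E ι F U₂ ∧ ivRed A U₂ ≠ 0 ∧ ι f * ivInc A U₂ = ivInc A U₁ := Iff.rfl

/-- An integral series defines an element of `V`. -/
theorem mem_VSet_of_isInt {f : Ω} {U : LaurentSeries A} (hU : IsInt A E ι F U)
    (hf : ι f = ivInc A U) : f ∈ VSet A E ι F := by
  obtain ⟨g, hg, hgU⟩ := hU.2
  have hfg : f = g := ι.injective (by rw [hf, hgU])
  refine ⟨hfg ▸ hg, U, 1, hU, isInt_one, ?_, ?_⟩
  · rw [map_one]; exact one_ne_zero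
  · rw [map_one, mul_one, hf]

variable (A E ι F) in
/-- The Gauss valuation ring `V` of `F`, as a subring of `Ω`. -/
def VRing : Subring Ω where
  carrier := VSet A E ι F
  zero_mem' := mem_VSet_of_isInt isInt_zero (by simp)
  one_mem' := mem_VSet_of_isInt isInt_one (by simp)
  add_mem' := by
    rintro f g ⟨hf, U₁, U₂, h₁, h₂, hr, hfU⟩ ⟨hg, W₁, W₂, k₁, k₂, kr, hgW⟩
    refine ⟨add_mem hf hg, U₁ * W₂ + W₁ * U₂, U₂ * W₂,
      IsInt.add (IsInt.mul h₁ k₂) (IsInt.mul k₁ h₂), IsInt.mul h₂ k₂, ?_, ?_⟩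
    · rw [map_mul]; exact mul_ne_zero hr kr
    · rw [map_add, map_mul, map_add, map_mul, map_mul, ← hfU, ← hgW]
      ring
  mul_mem' := by
    rintro f g ⟨hf, U₁, U₂, h₁, h₂, hr, hfU⟩ ⟨hg, W₁, W₂, k₁, k₂, kr, hgW⟩
    refine ⟨mul_mem hf hg, U₁ * W₁, U₂ * W₂, IsInt.mul h₁ k₁, IsInt.mul h₂ k₂, ?_, ?_⟩
    · rw [map_mul]; exact mul_ne_zero hr kr
    · rw [map_mul, map_mul, map_mul, ← hfU, ← hgW]
      ring
  neg_mem' := by
    rintro f ⟨hf, U₁, U₂, h₁, h₂, hr, hfU⟩
    refine ⟨neg_mem hf, -U₁, U₂, IsInt.neg h₁, h₂, hr, ?_⟩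
    rw [map_neg, map_neg, ← hfU]
    ring

variable (A E ι F) in
theorem coe_VRing : (VRing A E ι F : Set Ω) = VSet A E ι F := rfl

theorem mem_VRing_iff {f : Ω} : f ∈ VRing A E ι F ↔ f ∈ VSet A E ι F := Iff.rfl

variable (A E ι F) in
/-- field `V_le` of `GoodModel`. -/
theorem VRing_le : (VRing A E ι F : Set Ω) ⊆ F := fun _ hf => hf.1

/-- `V` is monotone in the field. -/
theorem VRing_mono {F' : Subfield Ω} (hF : F ≤ F') : VRing A E ι F ≤ VRing A E ι F' := by
  rintro f ⟨hf, U₁, U₂, h₁, h₂, hr, hfU⟩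
  exact ⟨hF hf, U₁, U₂, h₁.mono hF, h₂.mono hF, hr, hfU⟩

section Constants

variable (cst : K →+* Ω) (hcst : ∀ c : K, ι (cst c) = HahnSeries.C c)
  (hEF : ∀ c ∈ E, cst c ∈ F)

variable (A E) in
/-- The constants from `A ∩ E`, as a subring of `Ω`. -/
def RcG : Subring Ω := (A.toSubring ⊓ E.toSubring).map cst

variable (E) in
/-- The constants from `E`, as a subfield of `Ω`. -/
def EcG : Subfield Ω := E.map cst

theorem mem_RcG_iff {y : Ω} : y ∈ RcG A E cst ↔ ∃ c : K, c ∈ A ∧ c ∈ E ∧ cst c = y := by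
  unfold RcG
  rw [Subring.mem_map]
  constructor
  · rintro ⟨c, ⟨hA, hE⟩, rfl⟩
    exact ⟨c, hA, hE, rfl⟩
  · rintro ⟨c, hA, hE, rfl⟩
    exact ⟨c, ⟨hA, hE⟩, rfl⟩

theorem mem_EcG_iff {y : Ω} : y ∈ EcG E cst ↔ ∃ c : K, c ∈ E ∧ cst c = y := by
  unfold EcG
  rw [Subfield.mem_map]

theorem RcG_le_EcG : ∀ r ∈ RcG A E cst, r ∈ EcG E cst := by
  intro r hr
  obtain ⟨c, -, hE, rfl⟩ := (mem_RcG_iff cst).mp hr
  exact (mem_EcG_iff cst).mpr ⟨c, hE, rfl⟩

include hcst hEF in
/-- field `R_le_V`. -/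
theorem RcG_le_VRing : RcG A E cst ≤ VRing A E ι F := by
  intro r hr
  obtain ⟨c, hcA, hcE, rfl⟩ := (mem_RcG_iff cst).mp hr
  refine mem_VSet_of_isInt (U := HahnSeries.C (⟨c, hcA⟩ : A)) (isInt_C cst hcst hEF hcE) ?_
  rw [hcst, ivInc_C]

include hcst in
/-- field `w_inv_not_mem_V`: a non-unit `w₀ ≠ 0` of `A` is not invertible in `V`. -/
theorem w_inv_not_mem_VRing {w₀ : K} (hw0 : w₀ ≠ 0) (hwn : w₀⁻¹ ∉ A) :
    (cst w₀)⁻¹ ∉ VRing A E ι F := by
  rintro ⟨-, U₁, U₂, -, -, hr, hU⟩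
  apply hr
  rw [ivRed_eq_zero_iff]
  intro n
  rw [iv_mem_maximalIdeal_iff]
  have hval : ι ((cst w₀)⁻¹) = HahnSeries.C (w₀⁻¹) := by
    rw [← map_inv₀, hcst]
  rw [hval] at hU
  have hn := congrArg (fun z => z.coeff n) hU
  simp only [HahnSeries.C_mul_eq_smul, HahnSeries.coeff_smul, ivInc_coeff, smul_eq_mul] at hn
  by_cases h0 : ((U₂.coeff n : A) : K) = 0
  · exact Or.inl h0
  · right
    intro hinv
    apply hwn
    have : w₀⁻¹ = (U₁.coeff n : K) * ((U₂.coeff n : A) : K)⁻¹ := by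
      rw [← hn]; field_simp
    rw [this]
    exact A.mul_mem _ _ (U₁.coeff n).2 hinv

end Constants

end Fermat.Agent.S48.H248
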