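import Fermat.Agent.S48.H248.IVNormal

/-!
# S48 / RES (Tower A1) / node IGUSA1, piece I-V (helper248) — part 3: the Gauss property

Let `x ∈ F` be the expansion of an integral series `X₀` having a coefficient of NEGATIVE index
which is a unit of `A` (`x = j`: `X₀ = X^{-M} + 744 + …`; `x = t₂, t₃`: `X₀ = q⁻¹ + …`).
Then the reduction of `x` is transcendental over the residue field, hence

* `gauss`   : a polynomial in `x` with coefficients in `R = A ∩ E`, one of them a unit, is a unit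
              of `V` (field `gauss` of `S18.Alg.GoodModel` and of `H856.IgusaData`);
* `x_mem_V` : `x ∈ V`.
-/

set_option autoImplicit false

noncomputable section

namespace Fermat.Agent.S48.H248

open HahnSeries ModularCurve

variable {K : Type*} [Field K] {A : ValuationSubring K} {E : Subfield K}
variable {Ω : Type*} [Field Ω] {ι : Ω →+* LaurentSeries K} {F : Subfield Ω}

theorem IsInt.sum {α : Type*} (s : Finset α) (U : α → LaurentSeries A)
    (h : ∀ i ∈ s, IsInt A E ι F (U i)) : IsInt A E ι F (∑ i ∈ s, U i) := by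
  classical
  induction s using Finset.induction_on with
  | empty => rw [Finset.sum_empty]; exact isInt_zero
  | insert a s ha ih =>
    rw [Finset.sum_insert ha]
    exact IsInt.add (h a (Finset.mem_insert_self a s))
      (ih fun i hi => h i (Finset.mem_insert_of_mem hi))

/-- A Laurent series over a field with a nonzero coefficient of negative index is not a root
of a nonzero "polynomial" `∑ i ≤ n, c i • y ^ i`. -/
theorem sum_smul_pow_ne_zero {κ : Type*} [Field κ] (y : LaurentSeries κ) (hy : y.order < 0)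
    (n : ℕ) (c : ℕ → κ) (hc : ∃ i ∈ Finset.range (n + 1), c i ≠ 0) :
    ∑ i ∈ Finset.range (n + 1), HahnSeries.C (c i) * y ^ i ≠ 0 := by
  classical
  have hy0 : y ≠ 0 := by
    rintro rfl
    simp at hy
  set T := (Finset.range (n + 1)).filter fun i => c i ≠ 0 with hT
  have hTne : T.Nonempty := by
    obtain ⟨i, hi, hci⟩ := hc
    exact ⟨i, Finset.mem_filter.mpr ⟨hi, hci⟩⟩
  set d := T.max' hTne with hd
  have hdT : d ∈ T := Finset.max'_mem T hTne
  have hdr : d ∈ Finset.range (n + 1) := (Finset.mem_filter.mp hdT).1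
  have hcd : c d ≠ 0 := (Finset.mem_filter.mp hdT).2
  intro h0
  have hcoef := congrArg (fun z => z.coeff (d • y.order)) h0
  simp only [HahnSeries.coeff_sum, HahnSeries.C_mul_eq_smul, HahnSeries.coeff_smul,
    smul_eq_mul, HahnSeries.coeff_zero] at hcoef
  rw [Finset.sum_eq_single d] at hcoef
  · have h1 : (y ^ d).coeff (d • y.order) ≠ 0 := by
      rw [← HahnSeries.order_pow, ← HahnSeries.leadingCoeff_eq]
      exact HahnSeries.leadingCoeff_ne_zero.mpr (pow_ne_zero d hy0)
    exact mul_ne_zero hcd h1 hcoef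
  · intro i hi hid
    by_cases hci : c i = 0
    · rw [hci, zero_mul]
    · have hiT : i ∈ T := Finset.mem_filter.mpr ⟨hi, hci⟩
      have hle : i ≤ d := Finset.le_max' T i hiT
      have hlt : i < d := lt_of_le_of_ne hle hid
      have : (y ^ i).coeff (d • y.order) = 0 := by
        apply HahnSeries.coeff_eq_zero_of_lt_order
        rw [HahnSeries.order_pow]
        rw [nsmul_eq_mul, nsmul_eq_mul]
        have h2 : (i : ℤ) < d := by exact_mod_cast hlt
        nlinarith
      rw [this, mul_zero]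
  · intro h
    exact absurd hdr h

section Constants

variable (cst : K →+* Ω) (hcst : ∀ c : K, ι (cst c) = HahnSeries.C c)
  (hEF : ∀ c ∈ E, cst c ∈ F)

/-- field `x_mem_V`. -/
theorem x_mem_VRing {x : Ω} {X₀ : LaurentSeries A} (hX₀ : IsInt A E ι F X₀)
    (hx : ι x = ivInc A X₀) : x ∈ VRing A E ι F :=
  mem_VSet_of_isInt hX₀ hx

include hcst hEF

/-- field `gauss` of `GoodModel` / `IgusaData`. -/
theorem gauss {x : Ω} {X₀ : LaurentSeries A} (hX₀ : IsInt A E ι F X₀)
    (hx : ι x = ivInc A X₀) (n₀ : ℤ) (hn₀ : n₀ < 0) (hne : ((X₀.coeff n₀ : A) : K) ≠ 0)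
    (hunit : ((X₀.coeff n₀ : A) : K)⁻¹ ∈ A)
    (P : Polynomial Ω) (hP : ∀ i, P.coeff i ∈ RcG A E cst)
    (hPu : ∃ i, P.coeff i ≠ 0 ∧ (P.coeff i)⁻¹ ∈ RcG A E cst) :
    (P.eval x)⁻¹ ∈ VRing A E ι F := by
  classical
  have hxF : x ∈ F := by
    obtain ⟨g, hg, hgU⟩ := hX₀.2
    have : x = g := ι.injective (by rw [hx, hgU])
    rw [this]; exact hg
  -- choose the coefficients
  have hch : ∀ i, ∃ c : K, c ∈ A ∧ c ∈ E ∧ cst c = P.coeff i := fun i =>
    (mem_RcG_iff cst).mp (hP i)
  choose c hcA hcE hcP using hch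
  set n := P.natDegree with hn
  set U : LaurentSeries A :=
    ∑ i ∈ Finset.range (n + 1), HahnSeries.C (⟨c i, hcA i⟩ : A) * X₀ ^ i with hU
  have hUint : IsInt A E ι F U :=
    IsInt.sum _ _ fun i _ => IsInt.mul (isInt_C cst hcst hEF (hcE i)) (hX₀.pow i)
  have hUval : ivInc A U = ι (P.eval x) := by
    rw [Polynomial.eval_eq_sum_range, hU, map_sum, map_sum]
    refine Finset.sum_congr rfl fun i _ => ?_
    rw [map_mul, map_mul, map_pow, map_pow, ivInc_C, ← hcP i, hcst, hx]
  -- the reduction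
  have hred : ivRed A U ≠ 0 := by
    rw [hU, map_sum]
    have hterm : ∀ i ∈ Finset.range (n + 1),
        ivRed A (HahnSeries.C (⟨c i, hcA i⟩ : A) * X₀ ^ i)
          = HahnSeries.C (IsLocalRing.residue A ⟨c i, hcA i⟩) * (ivRed A X₀) ^ i := by
      intro i _
      rw [map_mul, map_pow, ivRed_C]
    rw [Finset.sum_congr rfl hterm]
    apply sum_smul_pow_ne_zero
    · -- the reduction of `X₀` has negative order
      have hcoef : (ivRed A X₀).coeff n₀ ≠ 0 := by
        rw [ivRed_coeff, Ne, IsLocalRing.residue_eq_zero_iff, iv_mem_maximalIdeal_iff]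
        rintro (h | h)
        · exact hne h
        · exact h hunit
      exact lt_of_le_of_lt (HahnSeries.order_le_of_coeff_ne_zero hcoef) hn₀
    · obtain ⟨i, hi0, hiu⟩ := hPu
      have hin : i ∈ Finset.range (n + 1) := by
        rw [Finset.mem_range, Nat.lt_succ_iff]
        exact Polynomial.le_natDegree_of_ne_zero hi0
      refine ⟨i, hin, ?_⟩
      rw [Ne, IsLocalRing.residue_eq_zero_iff, iv_mem_maximalIdeal_iff]
      obtain ⟨e, heA, -, hec⟩ := (mem_RcG_iff cst).mp hiu
      have hci0 : c i ≠ 0 := by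
        intro h0
        apply hi0
        rw [← hcP i, h0, map_zero]
      have he : e = (c i)⁻¹ := by
        apply cst.injective
        rw [hec, ← hcP i, map_inv₀]
      rintro (h | h)
      · exact hci0 h
      · apply h
        show (c i)⁻¹ ∈ A
        rw [← he]; exact heA
  have hPF : P.eval x ∈ F := by
    rw [Polynomial.eval_eq_sum_range]
    refine F.sum_mem fun i _ => F.mul_mem ?_ (F.pow_mem hxF i)
    rw [← hcP i]
    exact hEF _ (hcE i)
  have hne0 : ι (P.eval x) ≠ 0 := by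
    rw [← hUval]
    exact ivRed_ne_zero_imp_ivInc_ne_zero hred
  refine ⟨inv_mem hPF, 1, U, isInt_one, hUint, hred, ?_⟩
  rw [hUval, map_one, map_inv₀, inv_mul_cancel₀ hne0]

end Constants

/-! ### Stability of `V` under the twist `X ↦ ζ X` (piece I-TV) -/

section Twist

variable (t : Ω ≃+* Ω) (ζ : K)

/-- field `t_V` of `IgusaData`: an automorphism `t` of `Ω` preserving `F` and acting on
expansions by `X ↦ ζ X` (`ζ` a unit of `A ∩ E`) preserves the Gauss valuation ring. -/
theorem twist_mem_VRing (hζA : ζ ∈ A) (hζE : ζ ∈ E) (hζ0 : ζ ≠ 0) (hζinv : ζ⁻¹ ∈ A)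
    (ht : ∀ (f : Ω) (n : ℤ), (ι (t f)).coeff n = ζ ^ n * (ι f).coeff n)
    (htF : ∀ f ∈ F, t f ∈ F) {f : Ω} (hf : f ∈ VRing A E ι F) : t f ∈ VRing A E ι F := by
  obtain ⟨hfF, U₁, U₂, h₁, h₂, hr, hfU⟩ := hf
  have hζn : ∀ n : ℤ, ζ ^ n ∈ A ∧ ζ ^ n ∈ E := by
    intro n
    constructor
    · cases n with
      | ofNat k => rw [Int.ofNat_eq_natCast, zpow_natCast]; exact pow_mem hζA k
      | negSucc k => rw [zpow_negSucc, ← inv_pow]; exact pow_mem hζinv (k + 1)
    · exact zpow_mem hζE n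
  -- twisting an integral series
  have key : ∀ U : LaurentSeries A, IsInt A E ι F U →
      ∃ U' : LaurentSeries A, IsInt A E ι F U' ∧
        (∀ g : Ω, ι g = ivInc A U → ι (t g) = ivInc A U') ∧
        (ivRed A U ≠ 0 → ivRed A U' ≠ 0) := by
    intro U hU
    obtain ⟨g, hg, hgU⟩ := hU.2
    have hA : ∀ n, (ι (t g)).coeff n ∈ A := fun n => by
      rw [ht, hgU, ivInc_coeff]
      exact A.mul_mem _ _ (hζn n).1 (U.coeff n).2
    have hE : ∀ n, (ι (t g)).coeff n ∈ E := fun n => by
      rw [ht, hgU, ivInc_coeff]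
      exact E.mul_mem (hζn n).2 (hU.1 n)
    obtain ⟨U', hU', hval⟩ := exists_isInt_of_coeff_mem (htF g hg) hA hE
    refine ⟨U', hU', fun g' hg' => ?_, fun hred hred' => ?_⟩
    · have : g' = g := ι.injective (by rw [hg', hgU])
      rw [this, hval]
    · apply hred
      rw [ivRed_eq_zero_iff] at hred' ⊢
      intro n
      have h1 := hred' n
      rw [iv_mem_maximalIdeal_iff] at h1 ⊢
      have hc : ((U'.coeff n : A) : K) = ζ ^ n * ((U.coeff n : A) : K) := by
        rw [← ivInc_coeff, ← hval, ht, hgU, ivInc_coeff]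
      rw [hc] at h1
      rcases h1 with h1 | h1
      · left
        rcases mul_eq_zero.mp h1 with h2 | h2
        · exact absurd h2 (zpow_ne_zero n hζ0)
        · exact h2
      · by_cases hu0 : ((U.coeff n : A) : K) = 0
        · exact Or.inl hu0
        · right
          intro hinv
          apply h1
          rw [mul_inv, ← zpow_neg]
          exact A.mul_mem _ _ (hζn (-n)).1 hinv
  obtain ⟨W₁, hW₁, hv₁, -⟩ := key U₁ h₁
  obtain ⟨W₂, hW₂, hv₂, hr₂⟩ := key U₂ h₂
  obtain ⟨g₁, hg₁, hgU₁⟩ := h₁.2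
  obtain ⟨g₂, hg₂, hgU₂⟩ := h₂.2
  refine ⟨htF f hfF, W₁, W₂, hW₁, hW₂, hr₂ hr, ?_⟩
  rw [← hv₁ g₁ hgU₁, ← hv₂ g₂ hgU₂, ← map_mul, ← map_mul]
  congr 1
  congr 1
  apply ι.injective
  rw [map_mul, hgU₁, hgU₂, hfU]

/-- field `t_V` of `IgusaData`, as an equivalence. -/
theorem twist_mem_VRing_iff (hζA : ζ ∈ A) (hζE : ζ ∈ E) (hζ0 : ζ ≠ 0) (hζinv : ζ⁻¹ ∈ A)
    (ht : ∀ (f : Ω) (n : ℤ), (ι (t f)).coeff n = ζ ^ n * (ι f).coeff n)
    (htF : ∀ f ∈ F, t f ∈ F) (htF' : ∀ f ∈ F, t.symm f ∈ F) (f : Ω) :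
    t f ∈ VRing A E ι F ↔ f ∈ VRing A E ι F := by
  constructor
  · intro h
    have ht' : ∀ (g : Ω) (n : ℤ), (ι (t.symm g)).coeff n = ζ⁻¹ ^ n * (ι g).coeff n := by
      intro g n
      have := ht (t.symm g) n
      rw [RingEquiv.apply_symm_apply] at this
      rw [this, ← mul_assoc, ← mul_zpow, inv_mul_cancel₀ hζ0, one_zpow, one_mul]
    have := twist_mem_VRing (A := A) (E := E) (ι := ι) (F := F) t.symm ζ⁻¹ hζinv
      (E.inv_mem hζE) (inv_ne_zero hζ0) (by rwa [inv_inv]) ht' htF' h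
    rwa [RingEquiv.symm_apply_apply] at this
  · exact twist_mem_VRing t ζ hζA hζE hζ0 hζinv ht htF

end Twist

end Fermat.Agent.S48.H248
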