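import Fermat.Agent.S48.H248.IVGauss

/-!
# S48 / RES (Tower A1) / node IGUSA1, piece I-V (helper248) — part 4: transcendence of `x`

If the expansion `ι x` has negative order (a pole at `X = 0`), then `x` is transcendental over
every subring of constants of `Ω` (fields `x_transcendental` of `H856.IgusaData`, over `R`, and
of `S18.Alg.GoodModel`, over `Lc`).
-/

set_option autoImplicit false

noncomputable section

namespace Fermat.Agent.S48.H248

open HahnSeries ModularCurve

variable {K : Type*} [Field K]
variable {Ω : Type*} [Field Ω] {ι : Ω →+* LaurentSeries K}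

/-- `x` is transcendental over any subring of constants when `ι x` has negative order. -/
theorem transcendental_of_order_neg (cst : K →+* Ω)
    (hcst : ∀ c : K, ι (cst c) = HahnSeries.C c) (S : Subring Ω)
    (hS : ∀ s ∈ S, ∃ c : K, cst c = s) {x : Ω} (hx : (ι x).order < 0) :
    Transcendental S x := by
  classical
  rintro ⟨p, hp0, hp⟩
  have hch : ∀ i, ∃ c : K, cst c = ((p.coeff i : S) : Ω) := fun i => hS _ (p.coeff i).2
  choose c hc using hch
  have h1 : Polynomial.aeval x p
      = ∑ i ∈ Finset.range (p.natDegree + 1), cst (c i) * x ^ i := by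
    rw [Polynomial.aeval_eq_sum_range]
    refine Finset.sum_congr rfl fun i _ => ?_
    rw [hc i, Algebra.smul_def]
    rfl
  have h2 : ι (Polynomial.aeval x p)
      = ∑ i ∈ Finset.range (p.natDegree + 1), HahnSeries.C (c i) * (ι x) ^ i := by
    rw [h1, map_sum]
    refine Finset.sum_congr rfl fun i _ => ?_
    rw [map_mul, map_pow, hcst]
  have h3 : ∃ i ∈ Finset.range (p.natDegree + 1), c i ≠ 0 := by
    refine ⟨p.natDegree, Finset.self_mem_range_succ _, fun h0 => ?_⟩
    have h4 : ((p.coeff p.natDegree : S) : Ω) = 0 := by rw [← hc, h0, map_zero]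
    have h5 : p.leadingCoeff = 0 := Subtype.ext h4
    exact hp0 (Polynomial.leadingCoeff_eq_zero.mp h5)
  apply sum_smul_pow_ne_zero (ι x) hx p.natDegree c h3
  rw [← h2, hp, map_zero]

/-- The same for a subfield of constants. -/
theorem transcendental_subfield_of_order_neg (cst : K →+* Ω)
    (hcst : ∀ c : K, ι (cst c) = HahnSeries.C c) (L : Subfield Ω)
    (hL : ∀ s ∈ L, ∃ c : K, cst c = s) {x : Ω} (hx : (ι x).order < 0) :
    Transcendental L x :=
  transcendental_of_order_neg cst hcst L.toSubring hL hx

/-- `ι x` has negative order when it is the expansion of a series over `A` with a nonzero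
coefficient of negative index. -/
theorem order_neg_of_coeff_ne_zero {A : ValuationSubring K} {x : Ω} {X₀ : LaurentSeries A}
    (hx : ι x = ivInc A X₀) (n₀ : ℤ) (hn₀ : n₀ < 0) (hne : ((X₀.coeff n₀ : A) : K) ≠ 0) :
    (ι x).order < 0 := by
  have hcoef : (ι x).coeff n₀ ≠ 0 := by rw [hx, ivInc_coeff]; exact hne
  exact lt_of_le_of_lt (HahnSeries.order_le_of_coeff_ne_zero hcoef) hn₀

end Fermat.Agent.S48.H248
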