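import Fermat.Agent.S48.H248.IV
import Fermat.Agent.S48.H248.IVTrans
import Fermat.Agent.S48.H856.IgusaS18

/-!
# S48 / RES (Tower A1) / node IGUSA1 — assembly of `H856.IgusaData` (helper248)

`igusaData_of_inputs` : for `Ω = K((X))`, the Gauss valuation ring `V = VRing A E id Ffull` and
the constants `R = RcG A E C`, `Ec = EcG E C`, `w = C w₀`, ALL the `R`-, `V`-, `x`- and `t_V`-fields
of `H856.IgusaData` hold (pieces I-V, I-TV); what remains as hypotheses are exactly the outputs of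
I-ACT (`G_*`, `B_le`, `t_*`, stability of `Ffull`), I-F0 (`B_inv`) and I-S28 (`qep0`).
-/

set_option autoImplicit false

noncomputable section

namespace Fermat.Agent.S48.H248

open HahnSeries

variable {K : Type*} [Field K] (A : ValuationSubring K) (E : Subfield K)

/-- **Assembly of `IgusaData`** from I-V + I-TV (proved here) and the outputs of I-ACT, I-F0,
I-S28 (hypotheses). -/
theorem igusaData_of_inputs (Ffull F0 : Subfield (LaurentSeries K)) (w₀ : K) (hw : IsUnifG A E w₀)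
    (hEF : ∀ c ∈ E, (HahnSeries.C c : LaurentSeries K) ∈ Ffull)
    (hgen : ∀ f ∈ Ffull, IsRatio A E (RingHom.id _) Ffull f)
    (x : LaurentSeries K) (X₀ : LaurentSeries A) (hX₀ : IsInt A E (RingHom.id _) Ffull X₀)
    (hx : x = ivInc A X₀) (n₀ : ℤ) (hn₀ : n₀ < 0) (hne : ((X₀.coeff n₀ : A) : K) ≠ 0)
    (hunit : ((X₀.coeff n₀ : A) : K)⁻¹ ∈ A)
    (G B : Subgroup (LaurentSeries K ≃+* LaurentSeries K)) (t : LaurentSeries K ≃+* LaurentSeries K)
    (ζ : K) (hζA : ζ ∈ A) (hζE : ζ ∈ E) (hζ0 : ζ ≠ 0) (hζinv : ζ⁻¹ ∈ A)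
    (ht : ∀ (f : LaurentSeries K) (n : ℤ), (t f).coeff n = ζ ^ n * f.coeff n)
    (htF : ∀ f ∈ Ffull, t f ∈ Ffull) (htF' : ∀ f ∈ Ffull, t.symm f ∈ Ffull)
    (G_finite : Finite G)
    (G_fix_E : ∀ g ∈ G, ∀ a ∈ EcG E (HahnSeries.C : K →+* LaurentSeries K), g a = a)
    (G_fix_x : ∀ g ∈ G, g x = x)
    (G_stable : ∀ g ∈ G, ∀ f ∈ Ffull, g f ∈ Ffull)
    (G_inv : ∀ f ∈ Ffull, (∀ g ∈ G, g f = f) →
      f ∈ Fermat.Agent.S18.Alg.ratField (EcG E (HahnSeries.C : K →+* LaurentSeries K)) x)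
    (B_le : B ≤ G) (t_mem : t ∈ B)
    (t_normal : ∀ b ∈ B, b * t * b⁻¹ ∈ Subgroup.zpowers t)
    (t_gen : G ≤ Subgroup.closure {s | ∃ g ∈ G, s = g * t * g⁻¹})
    (B_inv : ∀ f ∈ Ffull, (∀ b ∈ B, b f = f) → f ∈ F0)
    (qep0 : ∀ b ∈ Fermat.Agent.S18.Alg.chart F0 (RcG A E (HahnSeries.C : K →+* LaurentSeries K)) x,
      b * (HahnSeries.C w₀ : LaurentSeries K)⁻¹ ∈ VRing A E (RingHom.id _) Ffull →
      b * (HahnSeries.C w₀ : LaurentSeries K)⁻¹ ∈
        Fermat.Agent.S18.Alg.chart F0 (RcG A E (HahnSeries.C : K →+* LaurentSeries K)) x) :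
    H856.IgusaData (EcG E (HahnSeries.C : K →+* LaurentSeries K)) F0 Ffull
      (RcG A E (HahnSeries.C : K →+* LaurentSeries K)) (VRing A E (RingHom.id _) Ffull)
      (HahnSeries.C w₀) x G B t := by
  have hcst : ∀ c : K, (RingHom.id (LaurentSeries K)) ((HahnSeries.C : K →+* LaurentSeries K) c)
      = HahnSeries.C c := fun c => rfl
  obtain ⟨r1, r2, r3, r4, r5, r6, -⟩ :=
    igusa_R_fields (A := A) (E := E) (HahnSeries.C : K →+* LaurentSeries K) hw
  obtain ⟨v1, v2, v3, v4, v5, v6⟩ :=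
    igusa_V_fields (ι := RingHom.id _) (F := Ffull) (HahnSeries.C : K →+* LaurentSeries K)
      hcst hEF hw hgen hX₀ hx n₀ hn₀ hne hunit
  have hxF : x ∈ Ffull := (VRing_le A E (RingHom.id _) Ffull) v2
  exact
  { R_le := r1
    R_total := r2
    w_mem := r3
    w_ne_zero := r4
    w_inv_not_mem := r5
    w_discrete := r6
    E_le := fun e he => by
      obtain ⟨c, hc, rfl⟩ := (mem_EcG_iff _).mp he
      exact hEF c hc
    x_mem := hxF
    x_transcendental := transcendental_of_order_neg (ι := RingHom.id _)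
      (HahnSeries.C : K →+* LaurentSeries K) hcst _
      (fun s hs => by
        obtain ⟨c, -, -, rfl⟩ := (mem_RcG_iff _).mp hs
        exact ⟨c, rfl⟩)
      (order_neg_of_coeff_ne_zero (ι := RingHom.id _) hx n₀ hn₀ hne)
    R_le_V := v1
    x_mem_V := v2
    V_total := v3
    w_inv_not_mem_V := v4
    V_discrete := v5
    gauss := v6
    G_finite := G_finite
    G_fix_E := G_fix_E
    G_fix_x := G_fix_x
    G_stable := G_stable
    G_inv := G_inv
    B_le := B_le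
    t_mem := t_mem
    t_normal := t_normal
    t_gen := t_gen
    t_V := fun f _ => twist_mem_VRing_iff (ι := RingHom.id _) t ζ hζA hζE hζ0 hζinv ht htF htF' f
    B_inv := B_inv
    qep0 := qep0 }

end Fermat.Agent.S48.H248
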