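import Fermat.Agent.S48.H248.IVBasic

/-!
# S48 / RES (Tower A1) / node IGUSA1, piece I-V (helper248) — part 2: normal form

For a uniformiser `w₀` of the discrete valuation ring `A ∩ E` (`IsUnifG`):

* `exists_normalise`   : a nonzero integral series is `w₀ ^ k` times an integral series with
                          nonzero reduction;
* `IsRatio`            : `f` is a quotient of two integral series (no condition on reductions);
  `isRatio_of_mem_closure` : every element of a field generated over `E` by quotients of integral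
                          series is such a quotient;
* `V_discrete`, `V_total`, `V_gen`, `VRing_inf` (`V_{F'} ∩ F = V_F`).
-/

set_option autoImplicit false

noncomputable section

namespace Fermat.Agent.S48.H248

open HahnSeries ModularCurve

variable {K : Type*} [Field K] {A : ValuationSubring K} {E : Subfield K}
variable {Ω : Type*} [Field Ω] {ι : Ω →+* LaurentSeries K} {F : Subfield Ω}

/-- `w₀` is a uniformiser of the discrete valuation ring `A ∩ E`. -/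
structure IsUnifG (A : ValuationSubring K) (E : Subfield K) (w₀ : K) : Prop where
  mem_A : w₀ ∈ A
  mem_E : w₀ ∈ E
  ne_zero : w₀ ≠ 0
  inv_not_mem : w₀⁻¹ ∉ A
  discrete : ∀ c, c ∈ A → c ∈ E → c ≠ 0 →
    ∃ n : ℕ, c * (w₀⁻¹) ^ n ∈ A ∧ (c * (w₀⁻¹) ^ n)⁻¹ ∈ A

theorem IsUnifG.gen {w₀ : K} (hw : IsUnifG A E w₀) (c : K) (hcA : c ∈ A) (hcE : c ∈ E)
    (hinv : c⁻¹ ∉ A) : c * w₀⁻¹ ∈ A := by
  by_cases hc0 : c = 0
  · rw [hc0, zero_mul]; exact A.zero_mem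
  obtain ⟨n, h1, h2⟩ := hw.discrete c hcA hcE hc0
  cases n with
  | zero =>
    exfalso
    apply hinv
    simpa using h2
  | succ n =>
    have : c * w₀⁻¹ = c * (w₀⁻¹) ^ (n + 1) * w₀ ^ n := by
      rw [pow_succ, inv_pow]
      field_simp [hw.ne_zero]
    rw [this]
    exact A.mul_mem _ _ h1 (pow_mem hw.mem_A n)

section Constants

variable (cst : K →+* Ω) (hcst : ∀ c : K, ι (cst c) = HahnSeries.C c)
  (hEF : ∀ c ∈ E, cst c ∈ F)

include hcst hEF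

/-- Dividing an integral series with zero reduction by the uniformiser. -/
theorem exists_div_unifG {w₀ : K} (hw : IsUnifG A E w₀) {U : LaurentSeries A}
    (hU : IsInt A E ι F U) (hred : ivRed A U = 0) :
    ∃ U' : LaurentSeries A, IsInt A E ι F U' ∧ ivInc A U = HahnSeries.C w₀ * ivInc A U' := by
  have hcoef : ∀ n, (HahnSeries.C (w₀⁻¹) * ivInc A U).coeff n ∈ A := by
    intro n
    rw [HahnSeries.C_mul_eq_smul, HahnSeries.coeff_smul, ivInc_coeff, smul_eq_mul, mul_comm]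
    have hm := (ivRed_eq_zero_iff U).mp hred n
    rcases (iv_mem_maximalIdeal_iff _).mp hm with h0 | hni
    · rw [h0, zero_mul]; exact A.zero_mem
    · exact hw.gen _ (U.coeff n).2 (hU.1 n) hni
  obtain ⟨U', hU'⟩ := exists_ivInc_eq hcoef
  obtain ⟨f, hf, hfU⟩ := hU.2
  refine ⟨U', ⟨fun n => ?_, (cst w₀)⁻¹ * f, ?_, ?_⟩, ?_⟩
  · rw [← ivInc_coeff, hU', HahnSeries.C_mul_eq_smul, HahnSeries.coeff_smul, smul_eq_mul]
    exact E.mul_mem (E.inv_mem hw.mem_E) (hU.coeff_mem n)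
  · exact mul_mem (inv_mem (hEF _ hw.mem_E)) hf
  · rw [map_mul, map_inv₀, hcst, hfU, hU', ← map_inv₀]
  · rw [hU', ← mul_assoc, ← map_mul, mul_inv_cancel₀ hw.ne_zero, map_one, one_mul]

/-- Auxiliary induction for `exists_normalise`. -/
theorem exists_normalise_aux {w₀ : K} (hw : IsUnifG A E w₀) (m : ℕ) :
    ∀ U : LaurentSeries A, IsInt A E ι F U →
      (∃ n₀ : ℤ, ((U.coeff n₀ : A) : K) * (w₀⁻¹) ^ m ∈ A ∧
        (((U.coeff n₀ : A) : K) * (w₀⁻¹) ^ m)⁻¹ ∈ A ∧ ((U.coeff n₀ : A) : K) ≠ 0) →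
      ∃ (k : ℕ) (U' : LaurentSeries A), IsInt A E ι F U' ∧ ivRed A U' ≠ 0 ∧
        ivInc A U = HahnSeries.C w₀ ^ k * ivInc A U' := by
  induction m with
  | zero =>
    rintro U hU ⟨n₀, -, h2, h3⟩
    refine ⟨0, U, hU, ?_, by rw [pow_zero, one_mul]⟩
    intro hred
    have hm := (ivRed_eq_zero_iff U).mp hred n₀
    rcases (iv_mem_maximalIdeal_iff _).mp hm with h0 | hni
    · exact h3 h0
    · apply hni
      simpa using h2
  | succ m ih =>
    rintro U hU ⟨n₀, h1, h2, h3⟩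
    by_cases hred : ivRed A U = 0
    · obtain ⟨U₁, hU₁, hUU₁⟩ := exists_div_unifG cst hcst hEF hw hU hred
      have hc : ((U.coeff n₀ : A) : K) = w₀ * ((U₁.coeff n₀ : A) : K) := by
        have := congrArg (fun z => z.coeff n₀) hUU₁
        simpa only [HahnSeries.C_mul_eq_smul, HahnSeries.coeff_smul, ivInc_coeff, smul_eq_mul]
          using this
      have hc' : ((U₁.coeff n₀ : A) : K) * (w₀⁻¹) ^ m
          = ((U.coeff n₀ : A) : K) * (w₀⁻¹) ^ (m + 1) := by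
        rw [hc, pow_succ]
        field_simp [hw.ne_zero]
      have h3' : ((U₁.coeff n₀ : A) : K) ≠ 0 := by
        intro h0
        apply h3
        rw [hc, h0, mul_zero]
      obtain ⟨k, U', hU', hr', hk⟩ := ih U₁ hU₁ ⟨n₀, by rw [hc']; exact h1,
        by rw [hc']; exact h2, h3'⟩
      refine ⟨k + 1, U', hU', hr', ?_⟩
      rw [hUU₁, hk, pow_succ]
      ring
    · exact ⟨0, U, hU, hred, by rw [pow_zero, one_mul]⟩

/-- **Normal form**: a nonzero integral series is `w₀ ^ k` times an integral series with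
nonzero reduction. -/
theorem exists_normalise {w₀ : K} (hw : IsUnifG A E w₀) {U : LaurentSeries A}
    (hU : IsInt A E ι F U) (hU0 : ivInc A U ≠ 0) :
    ∃ (k : ℕ) (U' : LaurentSeries A), IsInt A E ι F U' ∧ ivRed A U' ≠ 0 ∧
      ivInc A U = HahnSeries.C w₀ ^ k * ivInc A U' := by
  obtain ⟨n₀, hn₀⟩ : ∃ n₀ : ℤ, (ivInc A U).coeff n₀ ≠ 0 := by
    by_contra hcon
    apply hU0
    ext n
    by_contra hn
    exact hcon ⟨n, hn⟩
  rw [ivInc_coeff] at hn₀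
  obtain ⟨m, h1, h2⟩ := hw.discrete _ (U.coeff n₀).2 (hU.1 n₀) hn₀
  exact exists_normalise_aux cst hcst hEF hw m U hU ⟨n₀, h1, h2, hn₀⟩

end Constants

/-! ### Quotients of integral series -/

variable (A E ι F) in
/-- `f` is a quotient of two integral series of `F`. -/
def IsRatio (f : Ω) : Prop :=
  ∃ U₁ U₂ : LaurentSeries A, IsInt A E ι F U₁ ∧ IsInt A E ι F U₂ ∧ ivInc A U₂ ≠ 0 ∧
    ι f * ivInc A U₂ = ivInc A U₁

theorem IsRatio.mono {F' : Subfield Ω} (hF : F ≤ F') {f : Ω} (h : IsRatio A E ι F f) :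
    IsRatio A E ι F' f := by
  obtain ⟨U₁, U₂, h₁, h₂, h0, hf⟩ := h
  exact ⟨U₁, U₂, h₁.mono hF, h₂.mono hF, h0, hf⟩

theorem isRatio_of_mem_VRing {f : Ω} (h : f ∈ VRing A E ι F) : IsRatio A E ι F f := by
  obtain ⟨-, U₁, U₂, h₁, h₂, hr, hf⟩ := h
  exact ⟨U₁, U₂, h₁, h₂, ivRed_ne_zero_imp_ivInc_ne_zero hr, hf⟩

theorem isRatio_of_isInt {f : Ω} {U : LaurentSeries A} (hU : IsInt A E ι F U)
    (hf : ι f = ivInc A U) : IsRatio A E ι F f :=
  ⟨U, 1, hU, isInt_one, by rw [map_one]; exact one_ne_zero, by rw [map_one, mul_one, hf]⟩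

theorem isRatio_zero : IsRatio A E ι F 0 := isRatio_of_isInt isInt_zero (by simp)

theorem isRatio_one : IsRatio A E ι F 1 := isRatio_of_isInt isInt_one (by simp)

theorem IsRatio.add {f g : Ω} (hf : IsRatio A E ι F f) (hg : IsRatio A E ι F g) :
    IsRatio A E ι F (f + g) := by
  obtain ⟨U₁, U₂, h₁, h₂, hr, hfU⟩ := hf
  obtain ⟨W₁, W₂, k₁, k₂, kr, hgW⟩ := hg
  refine ⟨U₁ * W₂ + W₁ * U₂, U₂ * W₂, IsInt.add (IsInt.mul h₁ k₂) (IsInt.mul k₁ h₂),
    IsInt.mul h₂ k₂, ?_, ?_⟩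
  · rw [map_mul]; exact mul_ne_zero hr kr
  · rw [map_add, map_mul, map_add, map_mul, map_mul, ← hfU, ← hgW]
    ring

theorem IsRatio.mul {f g : Ω} (hf : IsRatio A E ι F f) (hg : IsRatio A E ι F g) :
    IsRatio A E ι F (f * g) := by
  obtain ⟨U₁, U₂, h₁, h₂, hr, hfU⟩ := hf
  obtain ⟨W₁, W₂, k₁, k₂, kr, hgW⟩ := hg
  refine ⟨U₁ * W₁, U₂ * W₂, IsInt.mul h₁ k₁, IsInt.mul h₂ k₂, ?_, ?_⟩
  · rw [map_mul]; exact mul_ne_zero hr kr
  · rw [map_mul, map_mul, map_mul, ← hfU, ← hgW]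
    ring

theorem IsRatio.neg {f : Ω} (hf : IsRatio A E ι F f) : IsRatio A E ι F (-f) := by
  obtain ⟨U₁, U₂, h₁, h₂, hr, hfU⟩ := hf
  refine ⟨-U₁, U₂, IsInt.neg h₁, h₂, hr, ?_⟩
  rw [map_neg, map_neg, ← hfU]
  ring

theorem IsRatio.inv {f : Ω} (hf : IsRatio A E ι F f) : IsRatio A E ι F f⁻¹ := by
  by_cases hf0 : f = 0
  · rw [hf0, inv_zero]; exact isRatio_zero
  obtain ⟨U₁, U₂, h₁, h₂, hr, hfU⟩ := hf
  have hιf : ι f ≠ 0 := (map_ne_zero ι).mpr hf0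
  refine ⟨U₂, U₁, h₂, h₁, ?_, ?_⟩
  · rw [← hfU]; exact mul_ne_zero hιf hr
  · rw [← hfU, map_inv₀, ← mul_assoc, inv_mul_cancel₀ hιf, one_mul]

section Constants

variable (cst : K →+* Ω) (hcst : ∀ c : K, ι (cst c) = HahnSeries.C c)
  (hEF : ∀ c ∈ E, cst c ∈ F)

include hcst hEF

theorem isRatio_cst {c : K} (hc : c ∈ E) : IsRatio A E ι F (cst c) := by
  rcases A.mem_or_inv_mem c with hA | hA
  · exact isRatio_of_isInt (U := HahnSeries.C (⟨c, hA⟩ : A)) (isInt_C cst hcst hEF hc)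
      (by rw [hcst, ivInc_C])
  · have h := isRatio_of_isInt (f := cst c⁻¹) (U := HahnSeries.C (⟨c⁻¹, hA⟩ : A))
      (isInt_C cst hcst hEF (E.inv_mem hc)) (by rw [hcst, ivInc_C])
    have h' := h.inv
    rwa [← map_inv₀, inv_inv] at h'

/-- Every element of a field generated over `E` by quotients of integral series is a quotient
of integral series. -/
theorem isRatio_of_mem_closure (S : Set Ω) (hS : ∀ s ∈ S, IsRatio A E ι F s) {f : Ω}
    (hf : f ∈ Subfield.closure ((EcG E cst : Set Ω) ∪ S)) : IsRatio A E ι F f := by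
  induction hf using Subfield.closure_induction with
  | mem x hx =>
    rcases hx with hx | hx
    · obtain ⟨c, hc, rfl⟩ := (mem_EcG_iff cst).mp hx
      exact isRatio_cst cst hcst hEF hc
    · exact hS x hx
  | one => exact isRatio_one
  | add x y _ _ hx hy => exact hx.add hy
  | neg x _ hx => exact hx.neg
  | inv x _ hx => exact hx.inv
  | mul x y _ _ hx hy => exact hx.mul hy

/-- field `V_discrete` of `IgusaData`. -/
theorem V_discrete {w₀ : K} (hw : IsUnifG A E w₀) {f : Ω} (hfF : f ∈ F)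
    (hf : IsRatio A E ι F f) (hf0 : f ≠ 0) :
    ∃ n : ℤ, f * cst w₀ ^ n ∈ VRing A E ι F ∧ (f * cst w₀ ^ n)⁻¹ ∈ VRing A E ι F := by
  obtain ⟨U₁, U₂, h₁, h₂, hr, hfU⟩ := hf
  have hιf : ι f ≠ 0 := (map_ne_zero ι).mpr hf0
  have hU₁0 : ivInc A U₁ ≠ 0 := by rw [← hfU]; exact mul_ne_zero hιf hr
  obtain ⟨k₁, V₁, hV₁, hr₁, hk₁⟩ := exists_normalise cst hcst hEF hw h₁ hU₁0
  obtain ⟨k₂, V₂, hV₂, hr₂, hk₂⟩ := exists_normalise cst hcst hEF hw h₂ hr
  have hw0 : cst w₀ ≠ 0 := (map_ne_zero cst).mpr hw.ne_zero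
  have hCw0 : (HahnSeries.C w₀ : LaurentSeries K) ≠ 0 := by
    rw [← hcst]; exact (map_ne_zero ι).mpr hw0
  have hwF : cst w₀ ∈ F := hEF _ hw.mem_E
  have hmem : f * cst w₀ ^ ((k₂ : ℤ) - k₁) ∈ F := mul_mem hfF (zpow_mem hwF _)
  have hkey : ι (f * cst w₀ ^ ((k₂ : ℤ) - k₁)) * ivInc A V₂ = ivInc A V₁ := by
    rw [map_mul, map_zpow₀, hcst, zpow_sub₀ hCw0, zpow_natCast, zpow_natCast]
    have h := hfU
    rw [hk₁, hk₂] at h
    have hp1 : (HahnSeries.C w₀ : LaurentSeries K) ^ k₁ ≠ 0 := pow_ne_zero _ hCw0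
    field_simp
    rw [← h]
    ring
  refine ⟨(k₂ : ℤ) - k₁, ⟨hmem, V₁, V₂, hV₁, hV₂, hr₂, hkey⟩,
    ⟨inv_mem hmem, V₂, V₁, hV₂, hV₁, hr₁, ?_⟩⟩
  have hne : ι (f * cst w₀ ^ ((k₂ : ℤ) - k₁)) ≠ 0 :=
    (map_ne_zero ι).mpr (mul_ne_zero hf0 (zpow_ne_zero _ hw0))
  rw [← hkey, map_inv₀, ← mul_assoc, inv_mul_cancel₀ hne, one_mul]

/-- `w ∈ V`. -/
theorem cst_unif_mem_VRing {w₀ : K} (hw : IsUnifG A E w₀) : cst w₀ ∈ VRing A E ι F :=
  RcG_le_VRing cst hcst hEF ((mem_RcG_iff cst).mpr ⟨w₀, hw.mem_A, hw.mem_E, rfl⟩)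

/-- If `u` is a unit of `V` and `u * w ^ n ∈ V`, then `0 ≤ n`. -/
theorem nonneg_of_unit_mul_zpow_mem {w₀ : K} (hw : IsUnifG A E w₀) {u : Ω} {n : ℤ}
    (hu : u⁻¹ ∈ VRing A E ι F) (hu0 : u ≠ 0) (h : u * cst w₀ ^ n ∈ VRing A E ι F) : 0 ≤ n := by
  by_contra hn
  rw [not_le] at hn
  have hw0 : cst w₀ ≠ 0 := (map_ne_zero cst).mpr hw.ne_zero
  have h1 : cst w₀ ^ n ∈ VRing A E ι F := by
    have := (VRing A E ι F).mul_mem hu h
    rwa [← mul_assoc, inv_mul_cancel₀ hu0, one_mul] at this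
  obtain ⟨m, hm⟩ : ∃ m : ℕ, n = -((m : ℤ) + 1) := ⟨(-n - 1).toNat, by omega⟩
  have h2 : (cst w₀)⁻¹ = cst w₀ ^ n * cst w₀ ^ m := by
    rw [hm, zpow_neg, zpow_add₀ hw0, zpow_natCast, zpow_one]
    field_simp
  apply w_inv_not_mem_VRing (E := E) (ι := ι) (F := F) cst hcst hw.ne_zero hw.inv_not_mem
  rw [h2]
  exact (VRing A E ι F).mul_mem h1 (pow_mem (cst_unif_mem_VRing cst hcst hEF hw) m)

/-- field `V_total`. -/
theorem V_total {w₀ : K} (hw : IsUnifG A E w₀) {f : Ω} (hfF : f ∈ F)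
    (hf : IsRatio A E ι F f) : f ∈ VRing A E ι F ∨ f⁻¹ ∈ VRing A E ι F := by
  by_cases hf0 : f = 0
  · left; rw [hf0]; exact zero_mem _
  obtain ⟨n, h1, h2⟩ := V_discrete cst hcst hEF hw hfF hf hf0
  have hw0 : cst w₀ ≠ 0 := (map_ne_zero cst).mpr hw.ne_zero
  have hwV := cst_unif_mem_VRing (ι := ι) (F := F) cst hcst hEF hw
  rcases le_or_gt n 0 with hn | hn
  · left
    obtain ⟨m, hm⟩ : ∃ m : ℕ, n = -(m : ℤ) := ⟨(-n).toNat, by omega⟩
    have : f = f * cst w₀ ^ n * cst w₀ ^ m := by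
      rw [hm, zpow_neg, zpow_natCast]
      field_simp
    rw [this]
    exact (VRing A E ι F).mul_mem h1 (pow_mem hwV m)
  · right
    obtain ⟨m, hm⟩ : ∃ m : ℕ, n = (m : ℤ) := ⟨n.toNat, by omega⟩
    have : f⁻¹ = (f * cst w₀ ^ n)⁻¹ * cst w₀ ^ m := by
      rw [hm, zpow_natCast]
      field_simp
    rw [this]
    exact (VRing A E ι F).mul_mem h2 (pow_mem hwV m)

/-- field `V_gen` of `GoodModel`. -/
theorem V_gen {w₀ : K} (hw : IsUnifG A E w₀) {f : Ω} (hf : f ∈ VRing A E ι F)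
    (hinv : f⁻¹ ∉ VRing A E ι F) : f * (cst w₀)⁻¹ ∈ VRing A E ι F := by
  have hf0 : f ≠ 0 := by
    rintro rfl
    apply hinv
    rw [inv_zero]; exact zero_mem _
  obtain ⟨n, h1, h2⟩ := V_discrete cst hcst hEF hw hf.1 (isRatio_of_mem_VRing hf) hf0
  have hw0 : cst w₀ ≠ 0 := (map_ne_zero cst).mpr hw.ne_zero
  have hwV := cst_unif_mem_VRing (ι := ι) (F := F) cst hcst hEF hw
  set u := f * cst w₀ ^ n with hu
  have hu0 : u ≠ 0 := mul_ne_zero hf0 (zpow_ne_zero _ hw0)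
  have hfu : f = u * cst w₀ ^ (-n) := by
    rw [hu, zpow_neg]
    field_simp
  have hn : 0 ≤ -n := nonneg_of_unit_mul_zpow_mem cst hcst hEF hw h2 hu0 (hfu ▸ hf)
  have hn' : -n ≠ 0 := by
    intro h0
    apply hinv
    rw [hfu, h0, zpow_zero, mul_one]
    exact h2
  obtain ⟨m, hm⟩ : ∃ m : ℕ, -n = (m : ℤ) + 1 := ⟨(-n - 1).toNat, by omega⟩
  have : f * (cst w₀)⁻¹ = u * cst w₀ ^ m := by
    rw [hfu, hm, zpow_add₀ hw0, zpow_natCast, zpow_one]
    field_simp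
  rw [this]
  exact (VRing A E ι F).mul_mem h1 (pow_mem hwV m)

/-- `V_{F'} ∩ F = V_F` for `F ≤ F'` (on quotients of integral series of `F`). -/
theorem mem_VRing_of_mem_of_le {w₀ : K} (hw : IsUnifG A E w₀) {F' : Subfield Ω} (hF : F ≤ F')
    {f : Ω} (hfF : f ∈ F) (hf : IsRatio A E ι F f) (hfV : f ∈ VRing A E ι F') :
    f ∈ VRing A E ι F := by
  by_cases hf0 : f = 0
  · rw [hf0]; exact zero_mem _
  obtain ⟨n, h1, h2⟩ := V_discrete cst hcst hEF hw hfF hf hf0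
  have hw0 : cst w₀ ≠ 0 := (map_ne_zero cst).mpr hw.ne_zero
  have hwV := cst_unif_mem_VRing (ι := ι) (F := F) cst hcst hEF hw
  set u := f * cst w₀ ^ n with hu
  have hu0 : u ≠ 0 := mul_ne_zero hf0 (zpow_ne_zero _ hw0)
  have hfu : f = u * cst w₀ ^ (-n) := by
    rw [hu, zpow_neg]
    field_simp
  have hEF' : ∀ c ∈ E, cst c ∈ F' := fun c hc => hF (hEF c hc)
  have hn : 0 ≤ -n := nonneg_of_unit_mul_zpow_mem (F := F') cst hcst hEF' hw
    (VRing_mono hF h2) hu0 (hfu ▸ hfV)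
  obtain ⟨m, hm⟩ : ∃ m : ℕ, -n = (m : ℤ) := ⟨(-n).toNat, by omega⟩
  rw [hfu, hm, zpow_natCast]
  exact (VRing A E ι F).mul_mem h1 (pow_mem hwV m)

end Constants

end Fermat.Agent.S48.H248
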